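import Fermat.Agent.S10.CaseIIAux

set_option autoImplicit false

namespace Fermat.Agent.S10

open NumberField Polynomial Finset

section

variable {p : ℕ} [Fact p.Prime] {K : Type*} [Field K] [NumberField K]
  [IsCyclotomicExtension {p} ℚ K] {ζ : K} (hζ : IsPrimitiveRoot ζ p)

/-- For `1 ≤ i < p`, if `λ ^ 2 ∣ x + y` and `λ ∤ y`, then `x + ζ ^ i * y = λ * t` with `λ ∤ t`. -/
theorem exists_eq_lambda_mul_of_sq_dvd {x y : 𝓞 K} (hy : ¬ (hζ.toInteger - 1) ∣ y)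
    (hsq : (hζ.toInteger - 1) ^ 2 ∣ x + y) {i : ℕ} (hi1 : 1 ≤ i) (hip : i < p) :
    ∃ t : 𝓞 K, x + hζ.toInteger ^ i * y = (hζ.toInteger - 1) * t ∧ ¬ (hζ.toInteger - 1) ∣ t := by
  have hij : ¬ (i : ℤ) ≡ (0 : ℕ) [ZMOD p] := by
    rw [Int.natCast_modEq_iff, Nat.modEq_zero_iff_dvd]
    exact Nat.not_dvd_of_pos_of_lt hi1 hip
  obtain ⟨w, hw⟩ := associated_lambda_zeta_pow_sub hζ hij
  obtain ⟨s, hs⟩ := hsq
  rw [pow_zero] at hw
  refine ⟨(hζ.toInteger - 1) * s + w * y, ?_, ?_⟩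
  · have : x + hζ.toInteger ^ i * y = (x + y) + (hζ.toInteger ^ i - 1) * y := by ring
    rw [this, hs, ← hw]; ring
  · intro hdvd
    have h1 : (hζ.toInteger - 1) ∣ (w : 𝓞 K) * y :=
      (dvd_add_right (dvd_mul_right _ _)).mp hdvd
    exact hy ((Units.dvd_mul_left (u := w)).mp h1)

/-- Counting powers of `λ`: the factor data of a normalized generalized solution. -/
theorem exists_factor_data (hp2 : p ≠ 2) {m : ℕ} (hm : 1 ≤ m) {x y z : 𝓞 K} {u : (𝓞 K)ˣ}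
    (hy : ¬ (hζ.toInteger - 1) ∣ y) (hz : ¬ (hζ.toInteger - 1) ∣ z)
    (h : x ^ p + y ^ p = (u : 𝓞 K) * ((hζ.toInteger - 1) ^ m * z) ^ p)
    (hsq : (hζ.toInteger - 1) ^ 2 ∣ x + y) :
    2 ≤ m ∧ ∃ g : ℕ → 𝓞 K,
      x + y = (hζ.toInteger - 1) ^ (p * (m - 1) + 1) * g 0 ∧
      (∀ i, 1 ≤ i → i < p → x + hζ.toInteger ^ i * y = (hζ.toInteger - 1) * g i) ∧
      (∀ i, i < p → ¬ (hζ.toInteger - 1) ∣ g i) ∧
      ∏ i ∈ range p, g i = (u : 𝓞 K) * z ^ p := by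
  have hpp : p.Prime := Fact.out
  have hp1 : 1 ≤ p := hpp.one_lt.le
  have hlam : Prime (hζ.toInteger - 1) := hζ.zeta_sub_one_prime'
  have hlam0 : (hζ.toInteger - 1) ≠ 0 := hlam.ne_zero
  -- the factors for `1 ≤ i < p`
  have hex : ∀ i : ℕ, ∃ t : 𝓞 K, 1 ≤ i → i < p →
      x + hζ.toInteger ^ i * y = (hζ.toInteger - 1) * t ∧ ¬ (hζ.toInteger - 1) ∣ t := by
    intro i
    by_cases hi : 1 ≤ i ∧ i < p
    · obtain ⟨t, ht⟩ := exists_eq_lambda_mul_of_sq_dvd hζ hy hsq hi.1 hi.2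
      exact ⟨t, fun _ _ => ht⟩
    · exact ⟨0, fun h1 h2 => absurd ⟨h1, h2⟩ hi⟩
  choose t ht using hex
  set T : 𝓞 K := ∏ i ∈ Ico 1 p, t i with hT
  have hTndvd : ¬ (hζ.toInteger - 1) ∣ T := by
    intro hdvd
    obtain ⟨i, hi, hdi⟩ := (Prime.dvd_finsetProd_iff hlam _).mp hdvd
    rw [mem_Ico] at hi
    exact (ht i hi.1 hi.2).2 hdi
  -- the product formula
  have hprod : x ^ p + y ^ p = (x + y) * ((hζ.toInteger - 1) ^ (p - 1) * T) := by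
    rw [pow_add_pow_eq_prod hζ hp2 x y, range_eq_Ico, prod_eq_prod_Ico_succ_bot hpp.pos]
    congr 1
    · simp
    · rw [hT, ← Nat.card_Ico 1 p, ← prod_const, ← prod_mul_distrib]
      exact prod_congr rfl fun i hi => (ht i (mem_Ico.mp hi).1 (mem_Ico.mp hi).2).1
  have hexp : m * p = (p - 1) + (p * (m - 1) + 1) := by
    obtain ⟨k, rfl⟩ := Nat.exists_eq_add_of_le hm
    obtain ⟨q, rfl⟩ := Nat.exists_eq_add_of_le hp1
    simp only [Nat.add_sub_cancel_left]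
    ring
  have hmain : (x + y) * T = (hζ.toInteger - 1) ^ (p * (m - 1) + 1) * ((u : 𝓞 K) * z ^ p) := by
    have h1 : (hζ.toInteger - 1) ^ (p - 1) * ((x + y) * T) =
        (hζ.toInteger - 1) ^ (p - 1) *
          ((hζ.toInteger - 1) ^ (p * (m - 1) + 1) * ((u : 𝓞 K) * z ^ p)) := by
      rw [← mul_assoc _ _ ((u : 𝓞 K) * z ^ p), ← pow_add, ← hexp]
      calc (hζ.toInteger - 1) ^ (p - 1) * ((x + y) * T)
          = (x + y) * ((hζ.toInteger - 1) ^ (p - 1) * T) := by ring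
        _ = x ^ p + y ^ p := hprod.symm
        _ = (u : 𝓞 K) * ((hζ.toInteger - 1) ^ m * z) ^ p := h
        _ = (hζ.toInteger - 1) ^ (m * p) * ((u : 𝓞 K) * z ^ p) := by rw [mul_pow, ← pow_mul]; ring
    exact mul_left_cancel₀ (pow_ne_zero _ hlam0) h1
  have hdvd : (hζ.toInteger - 1) ^ (p * (m - 1) + 1) ∣ x + y :=
    hlam.pow_dvd_of_dvd_mul_right _ hTndvd (hmain ▸ dvd_mul_right _ _)
  obtain ⟨x₀, hx₀⟩ := hdvd
  have hx₀T : x₀ * T = (u : 𝓞 K) * z ^ p := by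
    have h2 : (hζ.toInteger - 1) ^ (p * (m - 1) + 1) * (x₀ * T) =
        (hζ.toInteger - 1) ^ (p * (m - 1) + 1) * ((u : 𝓞 K) * z ^ p) := by
      rw [← hmain, hx₀]; ring
    exact mul_left_cancel₀ (pow_ne_zero _ hlam0) h2
  have hx₀ndvd : ¬ (hζ.toInteger - 1) ∣ x₀ := by
    intro hdvd
    have h3 : (hζ.toInteger - 1) ∣ (u : 𝓞 K) * z ^ p := hx₀T ▸ Dvd.dvd.mul_right hdvd T
    exact hz (hlam.dvd_of_dvd_pow ((Units.dvd_mul_left (u := u)).mp h3))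
  have hm2 : 2 ≤ m := by
    by_contra hlt
    have hm1 : m = 1 := by omega
    subst hm1
    obtain ⟨s, hs⟩ := hsq
    rw [Nat.sub_self, Nat.mul_zero, Nat.zero_add, pow_one, hs, pow_two, mul_assoc] at hx₀
    exact hx₀ndvd ⟨s, (mul_left_cancel₀ hlam0 hx₀).symm⟩
  refine ⟨hm2, fun i => if i = 0 then x₀ else t i, ?_, ?_, ?_, ?_⟩
  · simpa using hx₀
  · intro i hi1 hip
    have hi0 : i ≠ 0 := by omega
    simpa [hi0] using (ht i hi1 hip).1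
  · intro i hip
    by_cases hi0 : i = 0
    · simpa [hi0] using hx₀ndvd
    · simpa [hi0] using (ht i (by omega) hip).2
  · rw [range_eq_Ico, prod_eq_prod_Ico_succ_bot hpp.pos, ← hx₀T]
    congr 1
    refine prod_congr rfl fun i hi => ?_
    have hi0 : i ≠ 0 := by have := (mem_Ico.mp hi).1; omega
    simp [hi0]

/-- Two distinct factors `x + ζ ^ i * y`, `x + ζ ^ j * y` generate an ideal containing `λ`. -/
theorem exists_mul_add_mul_eq_lambda {x y : 𝓞 K} (hxy : IsCoprime x y) {i j : ℕ}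
    (hi : i < p) (hj : j < p) (hij : i ≠ j) :
    ∃ r s : 𝓞 K, r * (x + hζ.toInteger ^ i * y) + s * (x + hζ.toInteger ^ j * y) =
      hζ.toInteger - 1 := by
  have hmod : ¬ (i : ℤ) ≡ (j : ℕ) [ZMOD p] := by
    rw [Int.natCast_modEq_iff]
    intro hmod
    exact hij (Nat.ModEq.eq_of_lt_of_lt hmod hi hj)
  obtain ⟨w, hw⟩ := associated_lambda_zeta_pow_sub hζ hmod
  obtain ⟨a, b, hab⟩ := hxy
  refine ⟨((w⁻¹ : (𝓞 K)ˣ) : 𝓞 K) * (b - a * hζ.toInteger ^ j),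
    ((w⁻¹ : (𝓞 K)ˣ) : 𝓞 K) * (a * hζ.toInteger ^ i - b), ?_⟩
  have h1 : (b - a * hζ.toInteger ^ j) * (x + hζ.toInteger ^ i * y) +
      (a * hζ.toInteger ^ i - b) * (x + hζ.toInteger ^ j * y) =
      (hζ.toInteger ^ i - hζ.toInteger ^ j) * (a * x + b * y) := by ring
  calc ((w⁻¹ : (𝓞 K)ˣ) : 𝓞 K) * (b - a * hζ.toInteger ^ j) * (x + hζ.toInteger ^ i * y) +
        ((w⁻¹ : (𝓞 K)ˣ) : 𝓞 K) * (a * hζ.toInteger ^ i - b) * (x + hζ.toInteger ^ j * y)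
      = ((w⁻¹ : (𝓞 K)ˣ) : 𝓞 K) * ((b - a * hζ.toInteger ^ j) * (x + hζ.toInteger ^ i * y) +
        (a * hζ.toInteger ^ i - b) * (x + hζ.toInteger ^ j * y)) := by ring
    _ = ((w⁻¹ : (𝓞 K)ˣ) : 𝓞 K) * ((hζ.toInteger - 1) * (w : 𝓞 K)) := by
        rw [h1, hab, mul_one, hw]
    _ = hζ.toInteger - 1 := by
        rw [mul_comm (hζ.toInteger - 1), ← mul_assoc, Units.inv_mul, one_mul]

/-- The cofactors of two distinct factors are coprime. -/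
theorem isCoprime_cofactors {x y : 𝓞 K} (hxy : IsCoprime x y) {i j : ℕ}
    (hi : i < p) (hj : j < p) (hij : i ≠ j) {gi gj : 𝓞 K} {ei ej : ℕ}
    (hgi : x + hζ.toInteger ^ i * y = (hζ.toInteger - 1) ^ (ei + 1) * gi)
    (hgj : x + hζ.toInteger ^ j * y = (hζ.toInteger - 1) ^ (ej + 1) * gj) :
    IsCoprime gi gj := by
  have hlam0 : (hζ.toInteger - 1) ≠ 0 := hζ.zeta_sub_one_prime'.ne_zero
  obtain ⟨r, s, hrs⟩ := exists_mul_add_mul_eq_lambda hζ hxy hi hj hij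
  refine ⟨r * (hζ.toInteger - 1) ^ ei, s * (hζ.toInteger - 1) ^ ej, ?_⟩
  apply mul_left_cancel₀ hlam0
  rw [mul_one]
  calc (hζ.toInteger - 1) * (r * (hζ.toInteger - 1) ^ ei * gi + s * (hζ.toInteger - 1) ^ ej * gj)
      = r * ((hζ.toInteger - 1) ^ (ei + 1) * gi) + s * ((hζ.toInteger - 1) ^ (ej + 1) * gj) := by
        ring
    _ = hζ.toInteger - 1 := by rw [← hgi, ← hgj, hrs]

/-- The descent step: from a normalized generalized solution with exponent `m` we get `2 ≤ m`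
and a generalized solution with exponent `m - 1`. -/
theorem descent_step [IsPrincipalIdealRing (𝓞 K)] (hp5 : 5 ≤ p) (hK : KummerLemma p K)
    {m : ℕ} (hm : 1 ≤ m) {x y z : 𝓞 K} {u : (𝓞 K)ˣ}
    (hy : ¬ (hζ.toInteger - 1) ∣ y) (hz : ¬ (hζ.toInteger - 1) ∣ z) (hxy : IsCoprime x y)
    (h : x ^ p + y ^ p = (u : 𝓞 K) * ((hζ.toInteger - 1) ^ m * z) ^ p)
    (hsq : (hζ.toInteger - 1) ^ 2 ∣ x + y) :
    2 ≤ m ∧ ∃ (x' y' z' : 𝓞 K) (u' : (𝓞 K)ˣ), ¬ (hζ.toInteger - 1) ∣ y' ∧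
      ¬ (hζ.toInteger - 1) ∣ z' ∧ IsCoprime x' y' ∧
      x' ^ p + y' ^ p = (u' : 𝓞 K) * ((hζ.toInteger - 1) ^ (m - 1) * z') ^ p := by
  have hpp : p.Prime := Fact.out
  have hp2 : p ≠ 2 := by omega
  have hp0 : p ≠ 0 := by omega
  have hlam : Prime (hζ.toInteger - 1) := hζ.zeta_sub_one_prime'
  have hlam0 : (hζ.toInteger - 1) ≠ 0 := hlam.ne_zero
  obtain ⟨hm2, g, hg0, hgi, hgndvd, hgprod⟩ := exists_factor_data hζ hp2 hm hy hz h hsq
  refine ⟨hm2, ?_⟩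
  -- all factors written uniformly
  have hfe : ∀ i, i < p → x + hζ.toInteger ^ i * y =
      (hζ.toInteger - 1) ^ ((if i = 0 then p * (m - 1) else 0) + 1) * g i := by
    intro i hi
    by_cases hi0 : i = 0
    · subst hi0; simpa using hg0
    · simpa [hi0] using hgi i (by omega) hi
  have hcop : ∀ i j, i < p → j < p → i ≠ j → IsCoprime (g i) (g j) := fun i j hi hj hij =>
    isCoprime_cofactors hζ hxy hi hj hij (hfe i hi) (hfe j hj)
  -- each cofactor is a unit times a `p`-th power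
  have hpow : ∀ k, k < p → ∃ (ρ : 𝓞 K) (ε : (𝓞 K)ˣ), g k = (ε : 𝓞 K) * ρ ^ p := by
    intro k hk
    have h1 : g k * ∏ i ∈ (range p).erase k, g i = (u : 𝓞 K) * z ^ p := by
      rw [mul_prod_erase _ _ (mem_range.mpr hk), hgprod]
    have h2 : IsCoprime (g k) (∏ i ∈ (range p).erase k, g i) :=
      IsCoprime.prod_right fun i hi =>
        hcop k i hk (mem_range.mp (mem_of_mem_erase hi)) (ne_of_mem_erase hi).symm
    obtain ⟨ρ, ε, hε⟩ := exists_associated_pow_of_associated_pow_mul h2 (c := z) (k := p)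
      ⟨u, by rw [h1, mul_comm]⟩
    exact ⟨ρ, ε, by rw [← hε, mul_comm]⟩
  obtain ⟨ρ₀, ε₀, hρ₀⟩ := hpow 0 (by omega)
  obtain ⟨ρ₁, ε₁, hρ₁⟩ := hpow 1 (by omega)
  obtain ⟨ρ₂, ε₂, hρ₂⟩ := hpow 2 (by omega)
  -- the linear relation between the three factors
  have hrel : g 1 * (1 + hζ.toInteger) - g 2 =
      hζ.toInteger * (hζ.toInteger - 1) ^ (p * (m - 1)) * g 0 := by
    apply mul_left_cancel₀ hlam0
    have e1 := hgi 1 le_rfl (by omega)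
    have e2 := hgi 2 (by omega) (by omega)
    calc (hζ.toInteger - 1) * (g 1 * (1 + hζ.toInteger) - g 2)
        = ((hζ.toInteger - 1) * g 1) * (1 + hζ.toInteger) - (hζ.toInteger - 1) * g 2 := by ring
      _ = hζ.toInteger * (x + y) := by rw [← e1, ← e2]; ring
      _ = (hζ.toInteger - 1) *
          (hζ.toInteger * (hζ.toInteger - 1) ^ (p * (m - 1)) * g 0) := by rw [hg0]; ring
  -- units
  obtain ⟨ν, hν⟩ := isUnit_one_add_zeta hζ hp2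
  obtain ⟨ζu, hζu⟩ := hζ.toInteger_isPrimitiveRoot.isUnit hp0
  set c : (𝓞 K)ˣ := (ε₁ * ν)⁻¹ with hc
  have hcν : (ε₁ : 𝓞 K) * (1 + hζ.toInteger) * (c : 𝓞 K) = 1 := by
    rw [← hν, ← Units.val_mul, ← Units.val_mul, hc, mul_inv_cancel, Units.val_one]
  set η : (𝓞 K)ˣ := -(ε₂ * c) with hη
  set u' : (𝓞 K)ˣ := ζu * ε₀ * c with hu'
  have hrel' : (ε₁ : 𝓞 K) * ρ₁ ^ p * (1 + hζ.toInteger) - (ε₂ : 𝓞 K) * ρ₂ ^ p =
      hζ.toInteger * (hζ.toInteger - 1) ^ (p * (m - 1)) * ((ε₀ : 𝓞 K) * ρ₀ ^ p) := by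
    rw [← hρ₀, ← hρ₁, ← hρ₂]; exact hrel
  have heq : ρ₁ ^ p + (η : 𝓞 K) * ρ₂ ^ p =
      (u' : 𝓞 K) * ((hζ.toInteger - 1) ^ (m - 1) * ρ₀) ^ p := by
    have e3 : ((hζ.toInteger - 1) ^ (m - 1) * ρ₀) ^ p =
        (hζ.toInteger - 1) ^ (p * (m - 1)) * ρ₀ ^ p := by
      rw [mul_pow, ← pow_mul, mul_comm (m - 1) p]
    rw [e3, hη, hu', Units.val_neg, Units.val_mul, Units.val_mul, Units.val_mul, hζu]
    linear_combination (-ρ₁ ^ p) * hcν + (c : 𝓞 K) * hrel'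
  -- `λ ∤ ρ₂`, `λ ∤ ρ₀`
  have hρ₂ndvd : ¬ (hζ.toInteger - 1) ∣ ρ₂ := fun hdvd =>
    hgndvd 2 (by omega) (hρ₂ ▸ dvd_mul_of_dvd_right (dvd_pow hdvd hp0) _)
  have hρ₀ndvd : ¬ (hζ.toInteger - 1) ∣ ρ₀ := fun hdvd =>
    hgndvd 0 (by omega) (hρ₀ ▸ dvd_mul_of_dvd_right (dvd_pow hdvd hp0) _)
  -- Kummer's lemma
  have hexp : p * (m - 1) = p + p * (m - 2) := by
    obtain ⟨k, rfl⟩ := Nat.exists_eq_add_of_le hm2
    simp only [Nat.add_sub_cancel_left, show 2 + k - 1 = 1 + k by omega]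
    ring
  have heq' : ρ₁ ^ p + (η : 𝓞 K) * ρ₂ ^ p = (hζ.toInteger - 1) ^ p *
      ((u' : 𝓞 K) * (hζ.toInteger - 1) ^ (p * (m - 2)) * ρ₀ ^ p) := by
    rw [heq, mul_pow, ← pow_mul, mul_comm (m - 1) p, hexp, pow_add]; ring
  obtain ⟨δ, hδ⟩ := exists_unit_pow_eq_of_dvd hζ hK η hρ₂ndvd heq'
  refine ⟨ρ₁, δ * ρ₂, ρ₀, u', ?_, hρ₀ndvd, ?_, ?_⟩
  · exact fun hdvd => hρ₂ndvd ((Units.dvd_mul_left (u := δ)).mp hdvd)
  · have h12 : IsCoprime (g 1) (g 2) := hcop 1 2 (by omega) (by omega) (by omega)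
    rw [hρ₁, hρ₂, isCoprime_mul_unit_left_left ε₁.isUnit,
      isCoprime_mul_unit_left_right ε₂.isUnit, IsCoprime.pow_iff hpp.pos hpp.pos] at h12
    exact (isCoprime_mul_unit_left_right δ.isUnit _ _).mpr h12
  · rw [mul_pow, ← Units.val_pow_eq_pow_val, ← hδ]
    exact heq

/-- There is no generalized solution. -/
theorem no_gen_solution [IsPrincipalIdealRing (𝓞 K)] (hp5 : 5 ≤ p) (hK : KummerLemma p K) :
    ∀ m : ℕ, 1 ≤ m → ∀ (x y z : 𝓞 K) (u : (𝓞 K)ˣ), ¬ (hζ.toInteger - 1) ∣ y →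
      ¬ (hζ.toInteger - 1) ∣ z → IsCoprime x y →
      x ^ p + y ^ p = (u : 𝓞 K) * ((hζ.toInteger - 1) ^ m * z) ^ p → False := by
  have hp2 : p ≠ 2 := by omega
  intro m
  induction m with
  | zero => intro h0; omega
  | succ n ih =>
    intro _ x y z u hy hz hxy h
    obtain ⟨y', hy', hxy', h', hsq⟩ :=
      exists_lambda_sq_dvd_add hζ hp2 (Nat.le_add_left 1 n) hy hxy h
    obtain ⟨hm2, x'', y'', z'', u'', hy'', hz'', hxy'', h''⟩ :=
      descent_step hζ hp5 hK (Nat.le_add_left 1 n) hy' hz hxy' h' hsq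
    exact ih (by omega) x'' y'' z'' u'' hy'' hz'' hxy'' (by simpa using h'')

end

/-- Case II of Fermat's Last Theorem for the exponent `p`, assuming that the ring of integers
of the `p`-th cyclotomic field is a PID and Kummer's lemma. -/
theorem caseII_of_pid_of_kummer (p : ℕ) [Fact p.Prime] (hp5 : 5 ≤ p) (K : Type*) [Field K]
    [NumberField K] [IsCyclotomicExtension {p} ℚ K] [IsPrincipalIdealRing (𝓞 K)]
    (hK : KummerLemma p K) : CaseII p := by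
  intro a b c hc _ hb hpc hab h
  have hζ := IsCyclotomicExtension.zeta_spec p ℚ K
  obtain ⟨m, x, y, z, u, hm, hy, hz, hxy, hxyz⟩ := exists_gen_of_int hζ hc hb hpc hab h
  exact no_gen_solution hζ hp5 hK m hm x y z u hy hz hxy hxyz

end Fermat.Agent.S10
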