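import Mathlib.NumberTheory.FLT.Basic
import Mathlib.NumberTheory.NumberField.Cyclotomic.Basic
import Mathlib.NumberTheory.NumberField.Units.Basic

set_option autoImplicit false

namespace Fermat.Agent.S10

open NumberField Polynomial

/-- Case I of Fermat's equation for the exponent `p` (coprime form). -/
def CaseI (p : ℕ) : Prop :=
  ∀ a b c : ℤ, IsCoprime a b → ¬ (p : ℤ) ∣ a * b * c → a ^ p + b ^ p ≠ c ^ p

/-- Case II of Fermat's equation for the exponent `p` (normalised so that `p ∣ c`). -/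
def CaseII (p : ℕ) : Prop :=
  ∀ a b c : ℤ, c ≠ 0 → ¬ (p : ℤ) ∣ a → ¬ (p : ℤ) ∣ b → (p : ℤ) ∣ c → IsCoprime a b →
    a ^ p + b ^ p ≠ c ^ p

/-- Kummer's lemma for the ring of integers of `K`: a unit congruent to a rational integer
modulo `p` is a `p`-th power of a unit. -/
def KummerLemma (p : ℕ) (K : Type*) [Field K] [NumberField K] : Prop :=
  ∀ u : (𝓞 K)ˣ, (∃ n : ℤ, (p : 𝓞 K) ∣ (u : 𝓞 K) - (n : 𝓞 K)) → ∃ v : (𝓞 K)ˣ, u = v ^ p

/-- The polynomials giving the cyclotomic units used in the certificate: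
`unitPoly 0 = X` and `unitPoly k = 1 + X + ... + X ^ k` for `k ≥ 1`. -/
noncomputable def unitPoly (k : ℕ) : ℤ[X] :=
  if k = 0 then X else ∑ i ∈ Finset.range (k + 1), X ^ i

/-- A finite certificate for Kummer's lemma at `p`: logarithmic derivatives (in the variable
`T = ζ - 1`, modulo `p` and `T ^ (p - 2)`) of the units `unitPoly k (ζ)`, `k < (p - 1) / 2`,
given by polynomials `W k`, which are linearly independent modulo `p`. -/
def KummerCert (p : ℕ) : Prop :=
  ∃ W Q R : Fin ((p - 1) / 2) → ℤ[X],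
    (∀ k, W k * (unitPoly (k : ℕ)).comp (X + 1) - (derivative (unitPoly (k : ℕ))).comp (X + 1)
        = X ^ (p - 2) * Q k + (p : ℤ[X]) * R k) ∧
    (∀ c : Fin ((p - 1) / 2) → ZMod p,
        (∀ i : ℕ, i < p - 2 → ∑ k, c k * (((W k).coeff i : ℤ) : ZMod p) = 0) → c = 0)

end Fermat.Agent.S10
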