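import Mathlib
import Fermat.Agent.S10.Defs

set_option autoImplicit false

namespace Fermat.Agent.S10

open Polynomial

theorem linearIndependent_of_cert (p : ℕ) [Fact p.Prime] (n : ℕ) (W : Fin n → ℤ[X])
    (h : ∀ c : Fin n → ZMod p,
      (∀ i : ℕ, i < p - 2 → ∑ k, c k * (((W k).coeff i : ℤ) : ZMod p) = 0) → c = 0) :
    LinearIndependent (ZMod p) (fun k : Fin n =>
      (Ideal.Quotient.mk (Ideal.span {(Polynomial.X : (ZMod p)[X]) ^ (p - 2)}))
        ((W k).map (Int.castRingHom (ZMod p)))) := by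
  rw [Fintype.linearIndependent_iff]
  intro g hg i
  have hc : g = 0 := by
    apply h
    intro j hj
    have h1 : (∑ k, g k • (Ideal.Quotient.mk (Ideal.span {(Polynomial.X : (ZMod p)[X]) ^ (p - 2)}))
        ((W k).map (Int.castRingHom (ZMod p)))) =
        (Ideal.Quotient.mk (Ideal.span {(Polynomial.X : (ZMod p)[X]) ^ (p - 2)}))
          (∑ k, C (g k) * (W k).map (Int.castRingHom (ZMod p))) := by
      rw [map_sum]
      refine Finset.sum_congr rfl fun k _ => ?_
      rw [← smul_eq_C_mul]
      rfl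
    rw [h1, Ideal.Quotient.eq_zero_iff_mem, Ideal.mem_span_singleton, X_pow_dvd_iff] at hg
    have h2 := hg j hj
    rw [finsetSum_coeff] at h2
    rw [← h2]
    refine Finset.sum_congr rfl fun k _ => ?_
    rw [coeff_C_mul, coeff_map, eq_intCast]
  rw [hc]
  rfl

end Fermat.Agent.S10
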