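import Mathlib
import Fermat.Agent.S10.Defs

set_option autoImplicit false

namespace Fermat.Agent.S10

open NumberField Polynomial

/-- The cyclotomic units `unitPoly k (ζ)`, `k < (p - 1) / 2`, are units of the ring of
integers of the `p`-th cyclotomic field. -/
theorem isUnit_aeval_unitPoly (p : ℕ) [Fact p.Prime] {K : Type*} [Field K] [NumberField K]
    [IsCyclotomicExtension {p} ℚ K] {ζ : K} (hζ : IsPrimitiveRoot ζ p) (k : ℕ)
    (hk : k < (p - 1) / 2) : IsUnit (Polynomial.aeval hζ.toInteger (unitPoly k)) := by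
  have hp : p.Prime := Fact.out
  have hζ' : IsPrimitiveRoot hζ.toInteger p := hζ.toInteger_isPrimitiveRoot
  rcases Nat.eq_zero_or_pos k with rfl | hk0
  · rw [unitPoly, if_pos rfl, aeval_X]
    exact hζ'.isUnit hp.ne_zero
  · rw [unitPoly, if_neg hk0.ne', map_sum]
    simp only [map_pow, aeval_X]
    refine hζ'.geom_sum_isUnit hp.two_le ?_
    rw [Nat.coprime_comm, hp.coprime_iff_not_dvd]
    intro hdvd
    have := Nat.le_of_dvd (Nat.succ_pos k) hdvd
    omega

end Fermat.Agent.S10
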