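import Mathlib.NumberTheory.NumberField.Units.DirichletTheorem
import Mathlib.NumberTheory.NumberField.Cyclotomic.Embeddings
import Mathlib.LinearAlgebra.Dimension.Constructions
import Mathlib.Algebra.Module.ZMod

set_option autoImplicit false

namespace Fermat.Agent.S10

open NumberField NumberField.Units

/-- The unit rank of the `p`-th cyclotomic field (`p` an odd prime) is `(p - 3) / 2`. -/
theorem unitRank_add_one_eq (p : ℕ) [Fact p.Prime] (hp : p ≠ 2) (K : Type*) [Field K]
    [NumberField K] [IsCyclotomicExtension {p} ℚ K] : Units.rank K + 1 = (p - 1) / 2 := by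
  have hp' : p.Prime := Fact.out
  have h2 : 2 < p := lt_of_le_of_ne hp'.two_le (Ne.symm hp)
  have : NeZero p := ⟨hp'.ne_zero⟩
  have h1 := IsCyclotomicExtension.Rat.nrRealPlaces_eq_zero K h2
  have h3 := IsCyclotomicExtension.Rat.nrComplexPlaces_eq_totient_div_two p K
  rw [Nat.totient_prime hp'] at h3
  have h4 := InfinitePlace.card_eq_nrRealPlaces_add_nrComplexPlaces K
  rw [Units.rank, h4, h1, h3, zero_add]
  have : 1 ≤ (p - 1) / 2 := by omega
  omega

/-- Dirichlet-unit-theorem part of Kummer's lemma: if a homomorphism `L` from the units of the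
`p`-th cyclotomic ring of integers to an `𝔽_p`-vector space takes `(p - 1) / 2` linearly
independent values, then its kernel consists of `p`-th powers. -/
theorem exists_pow_of_indep (p : ℕ) [Fact p.Prime] (hp : p ≠ 2) (K : Type*) [Field K]
    [NumberField K] [IsCyclotomicExtension {p} ℚ K] {V : Type*} [AddCommGroup V]
    [Module (ZMod p) V] (L : (𝓞 K)ˣ →* Multiplicative V) (e : Fin ((p - 1) / 2) → (𝓞 K)ˣ)
    (hind : LinearIndependent (ZMod p) (fun k => Multiplicative.toAdd (L (e k))))
    (u : (𝓞 K)ˣ) (hu : L u = 1) : ∃ v : (𝓞 K)ˣ, u = v ^ p := by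
  classical
  have hp' : p.Prime := Fact.out
  -- additive version of `L`
  set ℓ : (𝓞 K)ˣ → V := fun x => Multiplicative.toAdd (L x) with hℓ
  have ℓ_mul : ∀ x y, ℓ (x * y) = ℓ x + ℓ y := fun x y => by
    simp only [hℓ, map_mul, toAdd_mul]
  have ℓ_zpow : ∀ (x : (𝓞 K)ˣ) (n : ℤ), ℓ (x ^ n) = (n : ZMod p) • ℓ x := fun x n => by
    simp only [hℓ, map_zpow, toAdd_zpow, Int.cast_smul_eq_zsmul]
  have ℓ_prod : ∀ (f : Fin (rank K) → (𝓞 K)ˣ), ℓ (∏ i, f i) = ∑ i, ℓ (f i) := fun f => by
    simp only [hℓ, map_prod, toAdd_prod]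
  -- a generator of the torsion subgroup
  obtain ⟨t₀, ht₀⟩ := IsCyclic.exists_generator (α := torsion K)
  -- the generating family of `rank K + 1` vectors
  set w : Option (Fin (rank K)) → V :=
    fun o => o.elim (ℓ (t₀ : (𝓞 K)ˣ)) (fun i => ℓ (fundSystem K i)) with hw
  -- expression of `ℓ x` in terms of `w`
  have hexpr : ∀ x : (𝓞 K)ˣ, ∃ c : Option (Fin (rank K)) → ℤ,
      x = (t₀ : (𝓞 K)ˣ) ^ c none * ∏ i, fundSystem K i ^ c (some i) ∧
      ℓ x = ∑ o, (c o : ZMod p) • w o := by
    intro x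
    obtain ⟨⟨ζ, f⟩, hx, -⟩ := exist_unique_eq_mul_prod K x
    obtain ⟨k, hk⟩ := Subgroup.mem_zpowers_iff.mp (ht₀ ζ)
    have hk' : (ζ : (𝓞 K)ˣ) = (t₀ : (𝓞 K)ˣ) ^ k := by
      rw [← hk]; simp
    refine ⟨fun o => o.elim k f, ?_, ?_⟩
    · simpa [hk'] using hx
    · have hx' : x = (t₀ : (𝓞 K)ˣ) ^ k * ∏ i, fundSystem K i ^ f i := by simpa [hk'] using hx
      rw [hx', ℓ_mul, ℓ_zpow, ℓ_prod, Fintype.sum_option]
      simp only [hw, Option.elim_none, Option.elim_some, ℓ_zpow]
  -- every `ℓ x` lies in the span of `w`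
  have hspan : ∀ x, ℓ x ∈ Submodule.span (ZMod p) (Set.range w) := by
    intro x
    obtain ⟨c, -, hc⟩ := hexpr x
    rw [hc]
    exact Submodule.sum_mem _ fun o _ =>
      Submodule.smul_mem _ _ (Submodule.subset_span (Set.mem_range_self o))
  -- hence `w` is linearly independent, by counting
  have hcard : Fintype.card (Option (Fin (rank K))) = (p - 1) / 2 := by
    rw [Fintype.card_option, Fintype.card_fin, unitRank_add_one_eq p hp K]
  have hwind : LinearIndependent (ZMod p) w := by
    rw [linearIndependent_iff_card_eq_finrank_span]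
    refine le_antisymm ?_ (finrank_range_le_card w)
    set S := Submodule.span (ZMod p) (Set.range w) with hS
    have : Module.Finite (ZMod p) S := FiniteDimensional.span_of_finite _ (Set.finite_range w)
    let g : Fin ((p - 1) / 2) → S := fun k => ⟨ℓ (e k), hspan (e k)⟩
    have hg : LinearIndependent (ZMod p) g := by
      apply LinearIndependent.of_comp S.subtype
      exact hind
    have := hg.fintype_card_le_finrank
    rw [Fintype.card_fin] at this
    rw [hcard]
    exact this
  -- conclude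
  obtain ⟨c, hc, hc'⟩ := hexpr u
  have hu0 : ℓ u = 0 := by simp only [hℓ, hu, toAdd_one]
  rw [hu0] at hc'
  have hzero := Fintype.linearIndependent_iff.mp hwind (fun o => (c o : ZMod p)) hc'.symm
  have hdvd : ∀ o, (p : ℤ) ∣ c o := fun o =>
    (ZMod.intCast_zmod_eq_zero_iff_dvd (c o) p).mp (hzero o)
  choose d hd using hdvd
  refine ⟨(t₀ : (𝓞 K)ˣ) ^ d none * ∏ i, fundSystem K i ^ d (some i), ?_⟩
  rw [hc, mul_pow, ← Finset.prod_pow, hd none, mul_comm (p : ℤ) (d none), zpow_mul, zpow_natCast]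
  congr 1
  refine Finset.prod_congr rfl fun i _ => ?_
  rw [hd (some i), mul_comm (p : ℤ) (d (some i)), zpow_mul, zpow_natCast]

end Fermat.Agent.S10
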