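import Mathlib
import Fermat.Agent.S10.Defs
import Fermat.Agent.S10.UnitsModPow
import Fermat.Agent.S10.UnitPolyUnits
import Fermat.Agent.S10.CertIndep

set_option autoImplicit false

namespace Fermat.Agent.S10

open NumberField Polynomial

namespace KummerCrit

/-! ### Evaluation of integer polynomials at dual numbers -/

section Dual

lemma aeval_inl_add_inr {R : Type*} [CommRing R] [Algebra ℤ R] [Algebra ℤ (DualNumber R)]
    (a b : R) (f : ℤ[X]) :
    aeval (TrivSqZeroExt.inl a + TrivSqZeroExt.inr b : DualNumber R) f =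
      TrivSqZeroExt.inl (aeval a f) + TrivSqZeroExt.inr (b * aeval a (derivative f)) := by
  induction f using Polynomial.induction_on' with
  | add f g hf hg =>
    rw [map_add, hf, hg, derivative_add, map_add, map_add, mul_add, TrivSqZeroExt.inl_add,
      TrivSqZeroExt.inr_add]
    abel
  | monomial n c =>
    apply TrivSqZeroExt.ext
    · simp [TrivSqZeroExt.fst_mul, TrivSqZeroExt.fst_pow]
    · rcases n with _ | n
      · simp [aeval_monomial]
      · simp only [aeval_monomial, TrivSqZeroExt.snd_mul, TrivSqZeroExt.snd_pow,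
          TrivSqZeroExt.fst_add, TrivSqZeroExt.fst_inl, TrivSqZeroExt.fst_inr,
          TrivSqZeroExt.snd_add, TrivSqZeroExt.snd_inl, TrivSqZeroExt.snd_inr, add_zero, zero_add,
          derivative_monomial, Nat.pred_succ, TrivSqZeroExt.fst_pow, smul_eq_mul,
          MulOpposite.smul_eq_mul_unop, MulOpposite.unop_op, nsmul_eq_mul, eq_intCast,
          TrivSqZeroExt.fst_intCast, TrivSqZeroExt.snd_intCast, Nat.add_sub_cancel]
        push_cast
        ring

variable {R : Type*} [CommRing R]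

/-- The logarithmic derivative on units of the dual numbers. -/
noncomputable def dlog (R : Type*) [CommRing R] : (DualNumber R)ˣ →* Multiplicative R where
  toFun x := Multiplicative.ofAdd
    ((x : DualNumber R).snd * ((x⁻¹ : (DualNumber R)ˣ) : DualNumber R).fst)
  map_one' := by simp
  map_mul' x y := by
    have hx : (x : DualNumber R).fst * ((x⁻¹ : (DualNumber R)ˣ) : DualNumber R).fst = 1 := by
      rw [← TrivSqZeroExt.fst_mul, Units.mul_inv, TrivSqZeroExt.fst_one]
    have hy : (y : DualNumber R).fst * ((y⁻¹ : (DualNumber R)ˣ) : DualNumber R).fst = 1 := by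
      rw [← TrivSqZeroExt.fst_mul, Units.mul_inv, TrivSqZeroExt.fst_one]
    have hxy : (x * y)⁻¹ = x⁻¹ * y⁻¹ := mul_inv x y
    rw [← ofAdd_add, hxy, Units.val_mul, Units.val_mul, TrivSqZeroExt.snd_mul,
      TrivSqZeroExt.fst_mul]
    congr 1
    simp only [smul_eq_mul, MulOpposite.smul_eq_mul_unop, MulOpposite.unop_op]
    linear_combination
      ((y : DualNumber R).snd * ((y⁻¹ : (DualNumber R)ˣ) : DualNumber R).fst) * hx +
      ((x : DualNumber R).snd * ((x⁻¹ : (DualNumber R)ˣ) : DualNumber R).fst) * hy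

lemma dlog_apply (x : (DualNumber R)ˣ) :
    Multiplicative.toAdd (dlog R x) =
      (x : DualNumber R).snd * ((x⁻¹ : (DualNumber R)ˣ) : DualNumber R).fst := rfl

end Dual

/-! ### The truncated polynomial ring -/

variable (p : ℕ) [Fact p.Prime]

/-- The truncated polynomial ring `(ZMod p)[X] / (X ^ (p - 2))`. -/
abbrev TB : Type := (ZMod p)[X] ⧸ Ideal.span {(X : (ZMod p)[X]) ^ (p - 2)}

/-- Reduction `ℤ[X] → (ZMod p)[X] / (X ^ (p - 2))`. -/
noncomputable def red : ℤ[X] →+* TB p :=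
  (Ideal.Quotient.mk _).comp (mapRingHom (Int.castRingHom (ZMod p)))

/-- The class of `X`. -/
noncomputable def tt : TB p := red p X

lemma red_eq_aeval (f : ℤ[X]) : red p f = aeval (tt p) f := by
  have h : red p = ((aeval (tt p) : ℤ[X] →ₐ[ℤ] TB p) : ℤ[X] →+* TB p) := by
    apply Polynomial.ringHom_ext
    · intro a
      simp [red]
    · simp [tt]
  rw [h]
  rfl

lemma tt_pow : tt p ^ (p - 2) = 0 := by
  rw [tt, ← map_pow, red, RingHom.comp_apply, coe_mapRingHom, Polynomial.map_pow, map_X,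
    Ideal.Quotient.eq_zero_iff_mem]
  exact Ideal.mem_span_singleton_self _

lemma natCast_TB : (p : TB p) = 0 := by
  have : (p : TB p) = algebraMap (ZMod p) (TB p) (p : ZMod p) := by
    rw [map_natCast]
  rw [this, ZMod.natCast_self, map_zero]

lemma natCast_dual : (p : DualNumber (TB p)) = 0 := by
  apply TrivSqZeroExt.ext
  · rw [TrivSqZeroExt.fst_natCast, natCast_TB, TrivSqZeroExt.fst_zero]
  · rw [TrivSqZeroExt.snd_natCast, TrivSqZeroExt.snd_zero]

/-- The point `(1 + t) + ε` of the dual numbers. -/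
noncomputable def yy : DualNumber (TB p) := TrivSqZeroExt.inl (tt p + 1) + TrivSqZeroExt.inr 1

lemma cyclotomic_eq_pow_add : ∃ G : ℤ[X], cyclotomic p ℤ = (X - 1) ^ (p - 1) + C (p : ℤ) * G := by
  have h : (cyclotomic p ℤ - (X - 1) ^ (p - 1)).map (Int.castRingHom (ZMod p)) = 0 := by
    have h1 := cyclotomic_mul_prime_eq_pow_of_not_dvd (ZMod p) (p := p) (n := 1)
      (Nat.Prime.not_dvd_one Fact.out)
    rw [one_mul, cyclotomic_one] at h1
    rw [Polynomial.map_sub, map_cyclotomic, h1, Polynomial.map_pow, Polynomial.map_sub, map_X,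
      Polynomial.map_one, sub_self]
  have h2 : C (p : ℤ) ∣ cyclotomic p ℤ - (X - 1) ^ (p - 1) := by
    rw [C_dvd_iff_dvd_coeff]
    intro i
    have h3 := congrArg (fun q => q.coeff i) h
    simp only [coeff_map, coeff_zero, eq_intCast] at h3
    exact (ZMod.intCast_zmod_eq_zero_iff_dvd _ p).mp h3
  obtain ⟨G, hG⟩ := h2
  exact ⟨G, by rw [← hG]; ring⟩

lemma aeval_yy_cyclotomic : aeval (yy p) (cyclotomic p ℤ) = 0 := by
  have hp1 : 1 ≤ p := (Fact.out : p.Prime).pos
  obtain ⟨G, hG⟩ := cyclotomic_eq_pow_add p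
  have hy : yy p - 1 = TrivSqZeroExt.inl (tt p) + TrivSqZeroExt.inr 1 := by
    apply TrivSqZeroExt.ext <;> simp [yy]
  have hpow : (TrivSqZeroExt.inl (tt p) + TrivSqZeroExt.inr 1 : DualNumber (TB p)) ^ (p - 1) = 0 := by
    have h1 : tt p ^ (p - 1) = 0 := by
      have : p - 1 = (p - 2) + 1 := by
        have := (Fact.out : p.Prime).two_le
        omega
      rw [this, pow_succ, tt_pow, zero_mul]
    apply TrivSqZeroExt.ext
    · simp [TrivSqZeroExt.fst_pow, h1]
    · have h2 : p - 1 - 1 = p - 2 := by omega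
      simp [TrivSqZeroExt.snd_pow, h2, tt_pow]
  rw [hG, map_add, map_pow, map_sub, aeval_X, map_one, hy, hpow, map_mul, aeval_C, eq_intCast,
    Int.cast_natCast, natCast_dual, zero_mul, add_zero]

variable {p}
variable {K : Type*} [Field K] [NumberField K] [IsCyclotomicExtension {p} ℚ K]

/-- The ring homomorphism `𝓞 K → DualNumber ((ZMod p)[X] / (X ^ (p - 2)))` sending
`ζ` to `(1 + t) + ε`. -/
noncomputable def Theta {ζ : K} (hζ : IsPrimitiveRoot ζ p) :
    𝓞 K →ₐ[ℤ] DualNumber (TB p) :=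
  hζ.integralPowerBasis.lift (yy p) (by
    have h : minpoly ℤ hζ.integralPowerBasis.gen = cyclotomic p ℤ := by
      rw [hζ.integralPowerBasis_gen, cyclotomic_eq_minpoly hζ (Fact.out : p.Prime).pos,
        ← RingOfIntegers.minpoly_coe]
      rfl
    rw [h]
    exact aeval_yy_cyclotomic p)

lemma Theta_toInteger {ζ : K} (hζ : IsPrimitiveRoot ζ p) :
    Theta hζ hζ.toInteger = yy p := by
  have h : Theta hζ hζ.toInteger = Theta hζ hζ.integralPowerBasis.gen := by
    rw [hζ.integralPowerBasis_gen]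
  rw [h]
  exact hζ.integralPowerBasis.lift_gen (yy p) _

lemma Theta_aeval {ζ : K} (hζ : IsPrimitiveRoot ζ p) (f : ℤ[X]) :
    Theta hζ (aeval hζ.toInteger f) =
      TrivSqZeroExt.inl (aeval (tt p + 1) f) + TrivSqZeroExt.inr (aeval (tt p + 1) (derivative f)) := by
  rw [← aeval_algHom_apply, Theta_toInteger, yy, aeval_inl_add_inr, one_mul]

/-- The logarithmic derivative homomorphism on units of `𝓞 K`. -/
noncomputable def Ldlog {ζ : K} (hζ : IsPrimitiveRoot ζ p) :
    (𝓞 K)ˣ →* Multiplicative (TB p) :=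
  (dlog (TB p)).comp (Units.map ((Theta hζ : 𝓞 K →+* DualNumber (TB p)) : 𝓞 K →* _))

lemma Ldlog_eq_one_of_dvd {ζ : K} (hζ : IsPrimitiveRoot ζ p) (u : (𝓞 K)ˣ)
    (h : ∃ n : ℤ, (p : 𝓞 K) ∣ (u : 𝓞 K) - (n : 𝓞 K)) : Ldlog hζ u = 1 := by
  obtain ⟨n, x, hx⟩ := h
  have hu : (u : 𝓞 K) = n + p * x := by rw [← hx]; ring
  have h1 : Theta hζ (u : 𝓞 K) = (n : DualNumber (TB p)) := by
    rw [hu, map_add, map_mul, map_intCast, map_natCast, natCast_dual, zero_mul, add_zero]
  have h2 : (Theta hζ (u : 𝓞 K)).snd = 0 := by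
    rw [h1, TrivSqZeroExt.snd_intCast]
  apply Multiplicative.toAdd.injective
  rw [Ldlog, MonoidHom.comp_apply, dlog_apply]
  simp only [Units.coe_map, MonoidHom.coe_coe, RingHom.coe_coe]
  rw [h2, zero_mul]
  rfl

/-- The cyclotomic units `unitPoly k (ζ)`. -/
noncomputable def cycUnit {ζ : K} (hζ : IsPrimitiveRoot ζ p) (k : Fin ((p - 1) / 2)) : (𝓞 K)ˣ :=
  (isUnit_aeval_unitPoly p hζ k k.2).unit

lemma Ldlog_cycUnit {ζ : K} (hζ : IsPrimitiveRoot ζ p) (k : Fin ((p - 1) / 2)) (W Q R : ℤ[X])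
    (h : W * (unitPoly (k : ℕ)).comp (X + 1) - (derivative (unitPoly (k : ℕ))).comp (X + 1)
        = X ^ (p - 2) * Q + (p : ℤ[X]) * R) :
    Multiplicative.toAdd (Ldlog hζ (cycUnit hζ k)) = red p W := by
  set f := unitPoly (k : ℕ) with hf
  have h1 : Theta hζ ((cycUnit hζ k : (𝓞 K)ˣ) : 𝓞 K) =
      TrivSqZeroExt.inl (aeval (tt p + 1) f) + TrivSqZeroExt.inr (aeval (tt p + 1) (derivative f)) := by
    rw [cycUnit, IsUnit.unit_spec, Theta_aeval]
  have h2 : red p W * aeval (tt p + 1) f = aeval (tt p + 1) (derivative f) := by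
    have h3 := congrArg (red p) h
    rw [map_sub, map_mul, map_add, map_mul, map_mul, map_pow, map_natCast, natCast_TB, zero_mul,
      add_zero] at h3
    have h4 : red p X ^ (p - 2) = 0 := tt_pow p
    rw [h4, zero_mul, red_eq_aeval p (f.comp (X + 1)), red_eq_aeval p ((derivative f).comp (X + 1)),
      aeval_comp, aeval_comp, map_add, aeval_X, map_one, sub_eq_zero] at h3
    exact h3
  rw [Ldlog, MonoidHom.comp_apply, dlog_apply]
  set v : (DualNumber (TB p))ˣ :=
    Units.map ((Theta hζ : 𝓞 K →+* DualNumber (TB p)) : 𝓞 K →* _) (cycUnit hζ k) with hv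
  have hv1 : (v : DualNumber (TB p)) = Theta hζ ((cycUnit hζ k : (𝓞 K)ˣ) : 𝓞 K) := rfl
  have hinv : (v : DualNumber (TB p)).fst * ((v⁻¹ : (DualNumber (TB p))ˣ) : DualNumber (TB p)).fst = 1 := by
    rw [← TrivSqZeroExt.fst_mul, Units.mul_inv, TrivSqZeroExt.fst_one]
  have hfst : (v : DualNumber (TB p)).fst = aeval (tt p + 1) f := by
    rw [hv1, h1]; simp
  have hsnd : (v : DualNumber (TB p)).snd = aeval (tt p + 1) (derivative f) := by
    rw [hv1, h1]; simp
  rw [hsnd, ← h2, mul_assoc, ← hfst, hinv, mul_one]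

end KummerCrit

open KummerCrit in
/-- Kummer's lemma for the `p`-th cyclotomic field from the finite certificate `KummerCert p`. -/
theorem kummerLemma_of_cert (p : ℕ) [Fact p.Prime] (hp5 : 5 ≤ p) (K : Type*) [Field K]
    [NumberField K] [IsCyclotomicExtension {p} ℚ K] (h : KummerCert p) : KummerLemma p K := by
  obtain ⟨W, Q, R, hW, hind⟩ := h
  have hζ := IsCyclotomicExtension.zeta_spec p ℚ K
  intro u hu
  refine exists_pow_of_indep p (by omega) K (Ldlog hζ) (cycUnit hζ) ?_ u
    (Ldlog_eq_one_of_dvd hζ u hu)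
  have h1 : (fun k => Multiplicative.toAdd (Ldlog hζ (cycUnit hζ k))) =
      fun k : Fin ((p - 1) / 2) => (Ideal.Quotient.mk (Ideal.span {(X : (ZMod p)[X]) ^ (p - 2)}))
        ((W k).map (Int.castRingHom (ZMod p))) := by
    funext k
    exact Ldlog_cycUnit hζ k (W k) (Q k) (R k) (hW k)
  rw [h1]
  exact linearIndependent_of_cert p ((p - 1) / 2) W hind

end Fermat.Agent.S10
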