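import Mathlib

set_option autoImplicit false

namespace Fermat.Agent.S10

open NumberField Polynomial

variable (p : ℕ) [Fact p.Prime] (K : Type*) [Field K] [NumberField K]
  [IsCyclotomicExtension {p} ℚ K]

theorem exists_lt_pow_inertiaDeg (q : ℕ) [Fact q.Prime] (hqp : q ≠ p) (B J : ℕ)
    (hJ : B < 2 ^ J) (h : ∀ j ∈ Finset.Icc 1 J, q ^ j ≤ B → q ^ j % p ≠ 1) :
    ∃ P ∈ Ideal.primesOver (Ideal.span {(q : ℤ)}) (𝓞 K), B < q ^ P.inertiaDeg ℤ := by
  have hp : p.Prime := Fact.out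
  have hq : q.Prime := Fact.out
  have : NeZero p := ⟨hp.ne_zero⟩
  have hqpdvd : ¬ q ∣ p := fun hd => hqp ((Nat.prime_dvd_prime_iff_eq hq hp).mp hd)
  obtain ⟨⟨P, hP⟩⟩ := (inferInstance : Nonempty (Ideal.primesOver (Ideal.span {(q : ℤ)}) (𝓞 K)))
  refine ⟨P, hP, ?_⟩
  have : P.IsPrime := hP.1
  have : P.LiesOver (Ideal.span {(q : ℤ)}) := hP.2
  rw [IsCyclotomicExtension.Rat.inertiaDeg_eq_of_not_dvd q K P hqpdvd]
  set d := orderOf (q : ZMod p) with hd
  by_contra hcon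
  rw [not_lt] at hcon
  have hcop : Nat.Coprime q p := (Nat.coprime_primes hq hp).mpr hqp
  have hunit : IsUnit (q : ZMod p) := (ZMod.isUnit_iff_coprime q p).mpr hcop
  have hdpos : 0 < d := by
    rw [hd, orderOf_pos_iff]
    exact hunit.isOfFinOrder
  have hdJ : d ≤ J := by
    by_contra hlt
    rw [not_le] at hlt
    have h1 : 2 ^ J < 2 ^ d := Nat.pow_lt_pow_right (by norm_num) hlt
    have h2 : 2 ^ d ≤ q ^ d := Nat.pow_le_pow_left hq.two_le d
    omega
  have hpow : (q : ZMod p) ^ d = 1 := pow_orderOf_eq_one _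
  have hmod : q ^ d % p = 1 := by
    have h3 : ((q ^ d : ℕ) : ZMod p) = ((1 : ℕ) : ZMod p) := by
      push_cast
      exact hpow
    have h4 := (ZMod.natCast_eq_natCast_iff' (q ^ d) 1 p).mp h3
    rw [h4]
    exact Nat.mod_eq_of_lt hp.one_lt
  exact h d (Finset.mem_Icc.mpr ⟨hdpos, hdJ⟩) hcon hmod

theorem exists_principal_primesOver_self :
    ∃ P ∈ Ideal.primesOver (Ideal.span {(p : ℤ)}) (𝓞 K), Submodule.IsPrincipal P := by
  have hp : p.Prime := Fact.out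
  have : NeZero p := ⟨hp.ne_zero⟩
  have hζ := IsCyclotomicExtension.zeta_spec p ℚ K
  refine ⟨Ideal.span {hζ.toInteger - 1}, ⟨?_, ?_⟩, ⟨⟨hζ.toInteger - 1, rfl⟩⟩⟩
  · exact IsCyclotomicExtension.Rat.isPrime_span_zeta_sub_one' p hζ
  · have hK' : IsCyclotomicExtension {p ^ (0 + 1)} ℚ K := by
      rw [zero_add, pow_one]; infer_instance
    have hζ' : IsPrimitiveRoot (IsCyclotomicExtension.zeta p ℚ K) (p ^ (0 + 1)) := by
      rw [zero_add, pow_one]; exact hζ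
    exact IsCyclotomicExtension.Rat.liesOver_span_zeta_sub_one p 0 hζ'

end Fermat.Agent.S10
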