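import Mathlib

open NumberField Polynomial

namespace Fermat.Agent.S10

set_option linter.unusedVariables false in
theorem minkowski_floor_le (p : ℕ) [Fact p.Prime] (K : Type*) [Field K] [NumberField K]
    [IsCyclotomicExtension {p} ℚ K] (hp2 : p ≠ 2) (B : ℕ) (s : ℝ) (hs0 : 0 ≤ s)
    (hs : (p : ℝ) ^ (p - 2) ≤ s ^ 2)
    (hB : (4 / 3.14 : ℝ) ^ ((p - 1) / 2) *
      (((p - 1).factorial : ℝ) / ((p - 1 : ℕ) : ℝ) ^ (p - 1) * s) < B + 1) :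
    ⌊(4 / Real.pi) ^ InfinitePlace.nrComplexPlaces K *
      (((Module.finrank ℚ K).factorial : ℝ) / (Module.finrank ℚ K : ℝ) ^ Module.finrank ℚ K *
        √|(discr K : ℝ)|)⌋₊ ≤ B := by
  have hp : p.Prime := Fact.out
  have hfin : Module.finrank ℚ K = p - 1 := by
    rw [IsCyclotomicExtension.finrank (n := p) K (cyclotomic.irreducible_rat hp.pos),
      Nat.totient_prime hp]
  have hnr : InfinitePlace.nrComplexPlaces K = (p - 1) / 2 := by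
    rw [IsCyclotomicExtension.Rat.nrComplexPlaces_eq_totient_div_two p, Nat.totient_prime hp]
  have hdisc : |(discr K : ℝ)| = (p : ℝ) ^ (p - 2) := by
    rw [IsCyclotomicExtension.Rat.discr_prime p K]
    push_cast
    rw [abs_mul, abs_pow, abs_pow, abs_neg, abs_one, one_pow, one_mul, Nat.abs_cast]
  have hsqrt : √|(discr K : ℝ)| ≤ s := by
    rw [hdisc]
    calc √((p : ℝ) ^ (p - 2)) ≤ √(s ^ 2) := Real.sqrt_le_sqrt hs
      _ = s := Real.sqrt_sq hs0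
  rw [hfin, hnr]
  have hpi : (4 / Real.pi : ℝ) ≤ 4 / 3.14 := by
    have := Real.pi_gt_d2
    gcongr
  have hpi0 : (0 : ℝ) ≤ 4 / Real.pi := by positivity
  have hle : (4 / Real.pi) ^ ((p - 1) / 2) *
      (((p - 1).factorial : ℝ) / ((p - 1 : ℕ) : ℝ) ^ (p - 1) * √|(discr K : ℝ)|) ≤
      (4 / 3.14 : ℝ) ^ ((p - 1) / 2) *
      (((p - 1).factorial : ℝ) / ((p - 1 : ℕ) : ℝ) ^ (p - 1) * s) := by
    gcongr
  have hlt := lt_of_le_of_lt hle hB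
  have hnn : (0 : ℝ) ≤ (4 / Real.pi) ^ ((p - 1) / 2) *
      (((p - 1).factorial : ℝ) / ((p - 1 : ℕ) : ℝ) ^ (p - 1) * √|(discr K : ℝ)|) := by
    positivity
  have : ⌊(4 / Real.pi) ^ ((p - 1) / 2) *
      (((p - 1).factorial : ℝ) / ((p - 1 : ℕ) : ℝ) ^ (p - 1) * √|(discr K : ℝ)|)⌋₊ < B + 1 := by
    rw [Nat.floor_lt hnn]
    exact_mod_cast hlt
  omega

theorem pid_of_cert_aux (p : ℕ) [Fact p.Prime] (K : Type*) [Field K] [NumberField K]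
    [IsCyclotomicExtension {p} ℚ K] (hp2 : p ≠ 2) (B J : ℕ) (hJ : B < 2 ^ J) (s : ℝ)
    (hs0 : 0 ≤ s) (hs : (p : ℝ) ^ (p - 2) ≤ s ^ 2)
    (hB : (4 / 3.14 : ℝ) ^ ((p - 1) / 2) *
      (((p - 1).factorial : ℝ) / ((p - 1 : ℕ) : ℝ) ^ (p - 1) * s) < B + 1)
    (exc : List ℕ)
    (hdec : ∀ q ≤ B, q.Prime → q = p ∨ q ∈ exc ∨
      ∀ j ∈ Finset.Icc 1 J, q ^ j ≤ B → q ^ j % p ≠ 1)
    (hexc : ∀ q ∈ exc, ∃ P ∈ Ideal.primesOver (Ideal.span {(q : ℤ)}) (𝓞 K),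
      Submodule.IsPrincipal P)
    (hinert : ∀ (q : ℕ) [Fact q.Prime], q ≠ p → ∀ (B J : ℕ), B < 2 ^ J →
      (∀ j ∈ Finset.Icc 1 J, q ^ j ≤ B → q ^ j % p ≠ 1) →
      ∃ P ∈ Ideal.primesOver (Ideal.span {(q : ℤ)}) (𝓞 K), B < q ^ P.inertiaDeg ℤ)
    (hself : ∃ P ∈ Ideal.primesOver (Ideal.span {(p : ℤ)}) (𝓞 K), Submodule.IsPrincipal P) :
    IsPrincipalIdealRing (𝓞 K) := by
  have hp : p.Prime := Fact.out
  have : IsGalois ℚ K := IsCyclotomicExtension.isGalois {p} ℚ K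
  have hM := minkowski_floor_le p K hp2 B s hs0 hs hB
  refine RingOfIntegers.isPrincipalIdealRing_of_isPrincipal_of_lt_or_isPrincipal_of_mem_primesOver_of_mem_Icc
    (fun q hq hqprime => ?_)
  have hqB : q ≤ B := le_trans (Finset.mem_Icc.mp hq).2 hM
  by_cases hqp : q = p
  · subst hqp
    obtain ⟨P, hP, hprinc⟩ := hself
    exact ⟨P, hP, Or.inr hprinc⟩
  rcases hdec q hqB hqprime with h | h | h
  · exact absurd h hqp
  · obtain ⟨P, hP, hprinc⟩ := hexc q h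
    exact ⟨P, hP, Or.inr hprinc⟩
  · have : Fact q.Prime := ⟨hqprime⟩
    obtain ⟨P, hP, hlt⟩ := hinert q hqp B J hJ h
    exact ⟨P, hP, Or.inl (lt_of_le_of_lt hM hlt)⟩

end Fermat.Agent.S10
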