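import Mathlib
import Fermat.Agent.S10.PIDMinkowski
import Fermat.Agent.S10.PIDInert

set_option autoImplicit false

namespace Fermat.Agent.S10

open NumberField Polynomial

section Lift

variable (p : ℕ) [Fact p.Prime] (K : Type*) [Field K] [NumberField K]
  [IsCyclotomicExtension {p} ℚ K]

omit [IsCyclotomicExtension {p} ℚ K] in
theorem minpoly_toInteger {ζ : K} (hζ : IsPrimitiveRoot ζ p) :
    minpoly ℤ hζ.toInteger = cyclotomic p ℤ := by
  have h1 : minpoly ℤ (algebraMap (𝓞 K) K hζ.toInteger) = minpoly ℤ hζ.toInteger :=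
    minpoly.algebraMap_eq RingOfIntegers.coe_injective _
  rw [← h1]
  exact (cyclotomic_eq_minpoly hζ (NeZero.pos p)).symm

theorem exists_ringHom_toInteger {ζ : K} (hζ : IsPrimitiveRoot ζ p) {F : Type*} [CommRing F]
    (y : F) (hy : aeval y (cyclotomic p ℤ) = 0) :
    ∃ φ : 𝓞 K →+* F, φ hζ.toInteger = y := by
  have hy' : aeval y (minpoly ℤ hζ.integralPowerBasis.gen) = 0 := by
    rw [hζ.integralPowerBasis_gen, minpoly_toInteger p K hζ]
    exact hy
  refine ⟨(hζ.integralPowerBasis.lift y hy').toRingHom, ?_⟩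
  have := hζ.integralPowerBasis.lift_gen y hy'
  rw [hζ.integralPowerBasis_gen] at this
  exact this

theorem exists_aeval_eq {ζ : K} (hζ : IsPrimitiveRoot ζ p) (x : 𝓞 K) :
    ∃ G : ℤ[X], aeval hζ.toInteger G = x := by
  have h : x ∈ Algebra.adjoin ℤ {hζ.toInteger} := by
    rw [IsCyclotomicExtension.Rat.adjoin_singleton_eq_top hζ]
    exact Algebra.mem_top
  rw [Algebra.adjoin_singleton_eq_range_aeval] at h
  exact h

theorem exists_principal_primesOver {ζ : K} (hζ : IsPrimitiveRoot ζ p) (q : ℕ) [Fact q.Prime]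
    (g : ℤ[X]) (hirr : Irreducible (g.map (Int.castRingHom (ZMod q))))
    (hdvd : g.map (Int.castRingHom (ZMod q)) ∣ cyclotomic p (ZMod q))
    (α β₁ β₂ : 𝓞 K) (h1 : α * β₁ = (q : 𝓞 K)) (h2 : α * β₂ = aeval hζ.toInteger g)
    (h3 : α ∈ Ideal.span {(q : 𝓞 K), aeval hζ.toInteger g}) :
    ∃ P ∈ Ideal.primesOver (Ideal.span {(q : ℤ)}) (𝓞 K), Submodule.IsPrincipal P := by
  classical
  have : Fact (Irreducible (g.map (Int.castRingHom (ZMod q)))) := ⟨hirr⟩
  have hmapaeval : ∀ G : ℤ[X], aeval (AdjoinRoot.root (g.map (Int.castRingHom (ZMod q)))) G =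
      AdjoinRoot.mk (g.map (Int.castRingHom (ZMod q))) (G.map (Int.castRingHom (ZMod q))) := by
    intro G
    induction G using Polynomial.induction_on' with
    | add a b ha hb => simp only [map_add, Polynomial.map_add, ha, hb]
    | monomial n a =>
      simp only [← C_mul_X_pow_eq_monomial, map_mul, map_pow, Polynomial.map_mul,
        Polynomial.map_pow, Polynomial.map_C, Polynomial.map_X, aeval_C, aeval_X,
        AdjoinRoot.mk_X, AdjoinRoot.mk_C]
      congr 1
  have hy : aeval (AdjoinRoot.root (g.map (Int.castRingHom (ZMod q)))) (cyclotomic p ℤ) = 0 := by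
    rw [hmapaeval, map_cyclotomic_int]
    exact AdjoinRoot.mk_eq_zero.mpr hdvd
  obtain ⟨φ, hφ⟩ := exists_ringHom_toInteger p K hζ _ hy
  have hφaeval : ∀ G : ℤ[X], φ (aeval hζ.toInteger G) =
      aeval (AdjoinRoot.root (g.map (Int.castRingHom (ZMod q)))) G := by
    intro G
    have := Polynomial.aeval_algHom_apply (φ.toIntAlgHom) hζ.toInteger G
    simp only [RingHom.toIntAlgHom_apply] at this
    rw [← this, hφ]
    rfl
  have hφq : φ (q : 𝓞 K) = 0 := by
    have h := hφaeval (C (q : ℤ))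
    rw [hmapaeval] at h
    simpa using h
  have hφg : φ (aeval hζ.toInteger g) = 0 := by
    rw [hφaeval, hmapaeval]
    exact AdjoinRoot.mk_self
  have hker : RingHom.ker φ = Ideal.span {α} := by
    apply le_antisymm
    · intro x hx
      obtain ⟨G, rfl⟩ := exists_aeval_eq p K hζ x
      rw [RingHom.mem_ker, hφaeval, hmapaeval, AdjoinRoot.mk_eq_zero] at hx
      obtain ⟨sq, hsq⟩ := hx
      obtain ⟨s, rfl⟩ := Polynomial.map_surjective (Int.castRingHom (ZMod q))
        (ZMod.intCast_surjective) sq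
      have hzero : (G - g * s).map (Int.castRingHom (ZMod q)) = 0 := by
        rw [Polynomial.map_sub, Polynomial.map_mul, hsq, sub_self]
      obtain ⟨R, hR⟩ : (C (q : ℤ)) ∣ (G - g * s) := by
        rw [Polynomial.C_dvd_iff_dvd_coeff]
        intro i
        have := congrArg (fun f => f.coeff i) hzero
        simp only [coeff_map, coeff_zero, eq_intCast] at this
        exact (ZMod.intCast_zmod_eq_zero_iff_dvd _ q).mp this
      have hG : G = g * s + C (q : ℤ) * R := by rw [← hR]; ring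
      rw [Ideal.mem_span_singleton]
      refine ⟨β₂ * aeval hζ.toInteger s + β₁ * aeval hζ.toInteger R, ?_⟩
      rw [hG, map_add, map_mul, map_mul, aeval_C, ← h2]
      have : (algebraMap ℤ (𝓞 K)) (q : ℤ) = α * β₁ := by rw [h1]; simp
      rw [this]
      ring
    · rw [Ideal.span_singleton_le_iff_mem]
      have : Ideal.span {(q : 𝓞 K), aeval hζ.toInteger g} ≤ RingHom.ker φ := by
        rw [Ideal.span_le]
        rintro x (rfl | rfl)
        · exact hφq
        · exact hφg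
      exact this h3
  have hprime : (Ideal.span {α}).IsPrime := by
    rw [← hker]
    exact RingHom.ker_isPrime φ
  refine ⟨Ideal.span {α}, ⟨hprime, ⟨?_⟩⟩, ⟨α, rfl⟩⟩
  have hq : (Ideal.span {(q : ℤ)}).IsMaximal :=
    Int.ideal_span_isMaximal_of_prime q
  refine hq.eq_of_le ?_ ?_
  · exact Ideal.comap_ne_top _ hprime.ne_top
  · rw [Ideal.span_le]
    rintro x rfl
    simp only [Ideal.under, SetLike.mem_coe, Ideal.mem_comap]
    rw [Ideal.mem_span_singleton]
    exact ⟨β₁, by rw [h1]; simp⟩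

theorem exists_principal_primesOver_of_root {ζ : K} (hζ : IsPrimitiveRoot ζ p) (q : ℕ)
    [Fact q.Prime] (r : ℤ) (hr : (q : ℤ) ∣ ∑ i ∈ Finset.range p, r ^ i)
    (α β₁ β₂ : 𝓞 K) (h1 : α * β₁ = (q : 𝓞 K)) (h2 : α * β₂ = hζ.toInteger - (r : 𝓞 K))
    (h3 : α ∈ Ideal.span {(q : 𝓞 K), hζ.toInteger - (r : 𝓞 K)}) :
    ∃ P ∈ Ideal.primesOver (Ideal.span {(q : ℤ)}) (𝓞 K), Submodule.IsPrincipal P := by
  have hmap : (X - C r : ℤ[X]).map (Int.castRingHom (ZMod q)) = X - C (r : ZMod q) := by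
    simp
  have haev : aeval hζ.toInteger (X - C r : ℤ[X]) = hζ.toInteger - (r : 𝓞 K) := by
    simp
  refine exists_principal_primesOver p K hζ q (X - C r) ?_ ?_ α β₁ β₂ h1 (by rw [haev]; exact h2)
    (by rw [haev]; exact h3)
  · rw [hmap]
    exact irreducible_X_sub_C _
  · rw [hmap, dvd_iff_isRoot, IsRoot.def, cyclotomic_prime, eval_finsetSum]
    simp only [eval_pow, eval_X]
    have := (ZMod.intCast_zmod_eq_zero_iff_dvd _ q).mpr hr
    simpa using this

theorem pid_of_cert (hp2 : p ≠ 2) (B J : ℕ) (hJ : B < 2 ^ J) (s : ℝ)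
    (hs0 : 0 ≤ s) (hs : (p : ℝ) ^ (p - 2) ≤ s ^ 2)
    (hB : (4 / 3.14 : ℝ) ^ ((p - 1) / 2) *
      (((p - 1).factorial : ℝ) / ((p - 1 : ℕ) : ℝ) ^ (p - 1) * s) < B + 1)
    (exc : List ℕ)
    (hdec : ∀ q ≤ B, q.Prime → q = p ∨ q ∈ exc ∨
      ∀ j ∈ Finset.Icc 1 J, q ^ j ≤ B → q ^ j % p ≠ 1)
    (hexc : ∀ q ∈ exc, ∃ P ∈ Ideal.primesOver (Ideal.span {(q : ℤ)}) (𝓞 K),
      Submodule.IsPrincipal P) :
    IsPrincipalIdealRing (𝓞 K) :=
  pid_of_cert_aux p K hp2 B J hJ s hs0 hs hB exc hdec hexc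
    (fun q _ hqp B J hJ h => exists_lt_pow_inertiaDeg p K q hqp B J hJ h)
    (exists_principal_primesOver_self p K)

end Lift

end Fermat.Agent.S10
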