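import Mathlib
import Fermat.Agent.S10.PIDLemmas

set_option autoImplicit false

namespace Fermat.Agent.S10

open NumberField Polynomial

/-- The cyclotomic relation for a primitive 13-th root of unity in the ring of integers. -/
theorem pid13_rel {K : Type*} [Field K] [NumberField K] {ζ : K} (hζ : IsPrimitiveRoot ζ 13) :
    1 + hζ.toInteger + hζ.toInteger ^ 2 + hζ.toInteger ^ 3 + hζ.toInteger ^ 4 + hζ.toInteger ^ 5 + hζ.toInteger ^ 6 + hζ.toInteger ^ 7 + hζ.toInteger ^ 8 + hζ.toInteger ^ 9 + hζ.toInteger ^ 10 + hζ.toInteger ^ 11 + hζ.toInteger ^ 12 = 0 := by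
  have h := hζ.toInteger_isPrimitiveRoot.geom_sum_eq_zero (by norm_num)
  simpa [Finset.sum_range_succ] using h

theorem pid13_mul_53 {R : Type*} [CommRing R] (z : R)
    (hΦ : 1 + z + z ^ 2 + z ^ 3 + z ^ 4 + z ^ 5 + z ^ 6 + z ^ 7 + z ^ 8 + z ^ 9 + z ^ 10 + z ^ 11 + z ^ 12 = 0) :
    (1 + z + z ^ 3) * (1 - 24 * z - 35 * z ^ 2 - 25 * z ^ 3 - 10 * z ^ 4 - 14 * z ^ 5 - 20 * z ^ 6 - 29 * z ^ 7 - 16 * z ^ 8 - 23 * z ^ 9 - 7 * z ^ 10 - 36 * z ^ 11) = 53 := by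
  linear_combination (-52 + 29 * z - 36 * z ^ 2) * hΦ

theorem pid13_mul'_53 {R : Type*} [CommRing R] (z : R)
    (hΦ : 1 + z + z ^ 2 + z ^ 3 + z ^ 4 + z ^ 5 + z ^ 6 + z ^ 7 + z ^ 8 + z ^ 9 + z ^ 10 + z ^ 11 + z ^ 12 = 0) :
    (1 + z + z ^ 3) * (1 - 7 * z - 11 * z ^ 2 - 8 * z ^ 3 - 3 * z ^ 4 - 4 * z ^ 5 - 6 * z ^ 6 - 9 * z ^ 7 - 5 * z ^ 8 - 7 * z ^ 9 - 2 * z ^ 10 - 11 * z ^ 11) = z - (-17) := by
  linear_combination (-16 + 9 * z - 11 * z ^ 2) * hΦ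

theorem pid13_q53 (K : Type*) [Field K] [NumberField K] [IsCyclotomicExtension {13} ℚ K]
    {ζ : K} (hζ : IsPrimitiveRoot ζ 13) :
    ∃ P ∈ Ideal.primesOver (Ideal.span {((53 : ℕ) : ℤ)}) (𝓞 K), Submodule.IsPrincipal P := by
  have : Fact (Nat.Prime 13) := ⟨by norm_num⟩
  have : Fact (Nat.Prime 53) := ⟨by norm_num⟩
  have hΦ := pid13_rel hζ
  refine exists_principal_primesOver_of_root 13 K hζ 53 (-17) ⟨10382157267197, by norm_num [Finset.sum_range_succ]⟩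
    (1 + hζ.toInteger + hζ.toInteger ^ 3) (1 - 24 * hζ.toInteger - 35 * hζ.toInteger ^ 2 - 25 * hζ.toInteger ^ 3 - 10 * hζ.toInteger ^ 4 - 14 * hζ.toInteger ^ 5 - 20 * hζ.toInteger ^ 6 - 29 * hζ.toInteger ^ 7 - 16 * hζ.toInteger ^ 8 - 23 * hζ.toInteger ^ 9 - 7 * hζ.toInteger ^ 10 - 36 * hζ.toInteger ^ 11) (1 - 7 * hζ.toInteger - 11 * hζ.toInteger ^ 2 - 8 * hζ.toInteger ^ 3 - 3 * hζ.toInteger ^ 4 - 4 * hζ.toInteger ^ 5 - 6 * hζ.toInteger ^ 6 - 9 * hζ.toInteger ^ 7 - 5 * hζ.toInteger ^ 8 - 7 * hζ.toInteger ^ 9 - 2 * hζ.toInteger ^ 10 - 11 * hζ.toInteger ^ 11) ?_ ?_ ?_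
  · have := pid13_mul_53 hζ.toInteger hΦ
    push_cast
    exact this
  · have := pid13_mul'_53 hζ.toInteger hΦ
    push_cast
    exact this
  · refine Ideal.mem_span_pair.mpr ⟨-93, 290 - 17 * hζ.toInteger + hζ.toInteger ^ 2, ?_⟩
    push_cast
    ring

theorem pid13_mul_79 {R : Type*} [CommRing R] (z : R)
    (hΦ : 1 + z + z ^ 2 + z ^ 3 + z ^ 4 + z ^ 5 + z ^ 6 + z ^ 7 + z ^ 8 + z ^ 9 + z ^ 10 + z ^ 11 + z ^ 12 = 0) :
    (1 + z - z ^ 4) * (24 - 25 * z - 27 * z ^ 2 + 10 * z ^ 3 - 3 * z ^ 4 - 39 * z ^ 5 - 5 * z ^ 6 - 2 * z ^ 7 - 18 * z ^ 8 - 38 * z ^ 9 + 16 * z ^ 10 - 35 * z ^ 11) = 79 := by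
  linear_combination (-55 + 54 * z - 51 * z ^ 2 + 35 * z ^ 3) * hΦ

theorem pid13_mul'_79 {R : Type*} [CommRing R] (z : R)
    (hΦ : 1 + z + z ^ 2 + z ^ 3 + z ^ 4 + z ^ 5 + z ^ 6 + z ^ 7 + z ^ 8 + z ^ 9 + z ^ 10 + z ^ 11 + z ^ 12 = 0) :
    (1 + z - z ^ 4) * (5 - 4 * z - 5 * z ^ 2 + 2 * z ^ 3 - 7 * z ^ 5 - z ^ 6 - 3 * z ^ 8 - 7 * z ^ 9 + 3 * z ^ 10 - 6 * z ^ 11) = z - (-15) := by
  linear_combination (-10 + 10 * z - 9 * z ^ 2 + 6 * z ^ 3) * hΦ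

theorem pid13_q79 (K : Type*) [Field K] [NumberField K] [IsCyclotomicExtension {13} ℚ K]
    {ζ : K} (hζ : IsPrimitiveRoot ζ 13) :
    ∃ P ∈ Ideal.primesOver (Ideal.span {((79 : ℕ) : ℤ)}) (𝓞 K), Submodule.IsPrincipal P := by
  have : Fact (Nat.Prime 13) := ⟨by norm_num⟩
  have : Fact (Nat.Prime 79) := ⟨by norm_num⟩
  have hΦ := pid13_rel hζ
  refine exists_principal_primesOver_of_root 13 K hζ 79 (-15) ⟨1539711288259, by norm_num [Finset.sum_range_succ]⟩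
    (1 + hζ.toInteger - hζ.toInteger ^ 4) (24 - 25 * hζ.toInteger - 27 * hζ.toInteger ^ 2 + 10 * hζ.toInteger ^ 3 - 3 * hζ.toInteger ^ 4 - 39 * hζ.toInteger ^ 5 - 5 * hζ.toInteger ^ 6 - 2 * hζ.toInteger ^ 7 - 18 * hζ.toInteger ^ 8 - 38 * hζ.toInteger ^ 9 + 16 * hζ.toInteger ^ 10 - 35 * hζ.toInteger ^ 11) (5 - 4 * hζ.toInteger - 5 * hζ.toInteger ^ 2 + 2 * hζ.toInteger ^ 3 - 7 * hζ.toInteger ^ 5 - hζ.toInteger ^ 6 - 3 * hζ.toInteger ^ 8 - 7 * hζ.toInteger ^ 9 + 3 * hζ.toInteger ^ 10 - 6 * hζ.toInteger ^ 11) ?_ ?_ ?_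
  · have := pid13_mul_79 hζ.toInteger hΦ
    push_cast
    exact this
  · have := pid13_mul'_79 hζ.toInteger hΦ
    push_cast
    exact this
  · refine Ideal.mem_span_pair.mpr ⟨-641, 3376 - 225 * hζ.toInteger + 15 * hζ.toInteger ^ 2 - hζ.toInteger ^ 3, ?_⟩
    push_cast
    ring

theorem pid13_mul_131 {R : Type*} [CommRing R] (z : R)
    (hΦ : 1 + z + z ^ 2 + z ^ 3 + z ^ 4 + z ^ 5 + z ^ 6 + z ^ 7 + z ^ 8 + z ^ 9 + z ^ 10 + z ^ 11 + z ^ 12 = 0) :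
    (1 - z - z ^ 3) * (111 + 78 * z + 17 * z ^ 2 + 67 * z ^ 3 + 84 * z ^ 4 + 40 * z ^ 5 + 46 * z ^ 6 + 69 * z ^ 7 + 48 * z ^ 8 + 33 * z ^ 9 + 41 * z ^ 10 + 28 * z ^ 11) = 131 := by
  linear_combination (-20 - 13 * z - 28 * z ^ 2) * hΦ

theorem pid13_mul'_131 {R : Type*} [CommRing R] (z : R)
    (hΦ : 1 + z + z ^ 2 + z ^ 3 + z ^ 4 + z ^ 5 + z ^ 6 + z ^ 7 + z ^ 8 + z ^ 9 + z ^ 10 + z ^ 11 + z ^ 12 = 0) :
    (1 - z - z ^ 3) * (43 + 31 * z + 7 * z ^ 2 + 26 * z ^ 3 + 33 * z ^ 4 + 16 * z ^ 5 + 18 * z ^ 6 + 27 * z ^ 7 + 19 * z ^ 8 + 13 * z ^ 9 + 16 * z ^ 10 + 11 * z ^ 11) = z - (-51) := by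
  linear_combination (-8 - 5 * z - 11 * z ^ 2) * hΦ

theorem pid13_q131 (K : Type*) [Field K] [NumberField K] [IsCyclotomicExtension {13} ℚ K]
    {ζ : K} (hζ : IsPrimitiveRoot ζ 13) :
    ∃ P ∈ Ideal.primesOver (Ideal.span {((131 : ℕ) : ℤ)}) (𝓞 K), Submodule.IsPrincipal P := by
  have : Fact (Nat.Prime 13) := ⟨by norm_num⟩
  have : Fact (Nat.Prime 131) := ⟨by norm_num⟩
  have hΦ := pid13_rel hζ
  refine exists_principal_primesOver_of_root 13 K hζ 131 (-51) ⟨2318129266464576071, by norm_num [Finset.sum_range_succ]⟩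
    (1 - hζ.toInteger - hζ.toInteger ^ 3) (111 + 78 * hζ.toInteger + 17 * hζ.toInteger ^ 2 + 67 * hζ.toInteger ^ 3 + 84 * hζ.toInteger ^ 4 + 40 * hζ.toInteger ^ 5 + 46 * hζ.toInteger ^ 6 + 69 * hζ.toInteger ^ 7 + 48 * hζ.toInteger ^ 8 + 33 * hζ.toInteger ^ 9 + 41 * hζ.toInteger ^ 10 + 28 * hζ.toInteger ^ 11) (43 + 31 * hζ.toInteger + 7 * hζ.toInteger ^ 2 + 26 * hζ.toInteger ^ 3 + 33 * hζ.toInteger ^ 4 + 16 * hζ.toInteger ^ 5 + 18 * hζ.toInteger ^ 6 + 27 * hζ.toInteger ^ 7 + 19 * hζ.toInteger ^ 8 + 13 * hζ.toInteger ^ 9 + 16 * hζ.toInteger ^ 10 + 11 * hζ.toInteger ^ 11) ?_ ?_ ?_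
  · have := pid13_mul_131 hζ.toInteger hΦ
    push_cast
    exact this
  · have := pid13_mul'_131 hζ.toInteger hΦ
    push_cast
    exact this
  · refine Ideal.mem_span_pair.mpr ⟨1013, -2602 + 51 * hζ.toInteger - hζ.toInteger ^ 2, ?_⟩
    push_cast
    ring

theorem pid13_mul_157 {R : Type*} [CommRing R] (z : R)
    (hΦ : 1 + z + z ^ 2 + z ^ 3 + z ^ 4 + z ^ 5 + z ^ 6 + z ^ 7 + z ^ 8 + z ^ 9 + z ^ 10 + z ^ 11 + z ^ 12 = 0) :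
    (1 - z + z ^ 2 + z ^ 4) * (89 + 86 * z + 42 * z ^ 2 + 77 * z ^ 3 + 67 * z ^ 4 + 25 * z ^ 5 + 37 * z ^ 6 + 56 * z ^ 7 + 73 * z ^ 8 + 113 * z ^ 9 + 124 * z ^ 10 + 76 * z ^ 11) = 157 := by
  linear_combination (-68 + 65 * z + 48 * z ^ 2 + 76 * z ^ 3) * hΦ

theorem pid13_mul'_157 {R : Type*} [CommRing R] (z : R)
    (hΦ : 1 + z + z ^ 2 + z ^ 3 + z ^ 4 + z ^ 5 + z ^ 6 + z ^ 7 + z ^ 8 + z ^ 9 + z ^ 10 + z ^ 11 + z ^ 12 = 0) :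
    (1 - z + z ^ 2 + z ^ 4) * (-43 - 41 * z - 20 * z ^ 2 - 37 * z ^ 3 - 32 * z ^ 4 - 12 * z ^ 5 - 18 * z ^ 6 - 27 * z ^ 7 - 35 * z ^ 8 - 54 * z ^ 9 - 59 * z ^ 10 - 36 * z ^ 11) = z - (75) := by
  linear_combination (32 - 31 * z - 23 * z ^ 2 - 36 * z ^ 3) * hΦ

theorem pid13_q157 (K : Type*) [Field K] [NumberField K] [IsCyclotomicExtension {13} ℚ K]
    {ζ : K} (hζ : IsPrimitiveRoot ζ 13) :
    ∃ P ∈ Ideal.primesOver (Ideal.span {((157 : ℕ) : ℤ)}) (𝓞 K), Submodule.IsPrincipal P := by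
  have : Fact (Nat.Prime 13) := ⟨by norm_num⟩
  have : Fact (Nat.Prime 157) := ⟨by norm_num⟩
  have hΦ := pid13_rel hζ
  refine exists_principal_primesOver_of_root 13 K hζ 157 (75) ⟨204486693217927154893, by norm_num [Finset.sum_range_succ]⟩
    (1 - hζ.toInteger + hζ.toInteger ^ 2 + hζ.toInteger ^ 4) (89 + 86 * hζ.toInteger + 42 * hζ.toInteger ^ 2 + 77 * hζ.toInteger ^ 3 + 67 * hζ.toInteger ^ 4 + 25 * hζ.toInteger ^ 5 + 37 * hζ.toInteger ^ 6 + 56 * hζ.toInteger ^ 7 + 73 * hζ.toInteger ^ 8 + 113 * hζ.toInteger ^ 9 + 124 * hζ.toInteger ^ 10 + 76 * hζ.toInteger ^ 11) (-43 - 41 * hζ.toInteger - 20 * hζ.toInteger ^ 2 - 37 * hζ.toInteger ^ 3 - 32 * hζ.toInteger ^ 4 - 12 * hζ.toInteger ^ 5 - 18 * hζ.toInteger ^ 6 - 27 * hζ.toInteger ^ 7 - 35 * hζ.toInteger ^ 8 - 54 * hζ.toInteger ^ 9 - 59 * hζ.toInteger ^ 10 - 36 * hζ.toInteger ^ 11) ?_ ?_ ?_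
  · have := pid13_mul_157 hζ.toInteger hΦ
    push_cast
    exact this
  · have := pid13_mul'_157 hζ.toInteger hΦ
    push_cast
    exact this
  · refine Ideal.mem_span_pair.mpr ⟨201568, 421949 + 5626 * hζ.toInteger + 75 * hζ.toInteger ^ 2 + hζ.toInteger ^ 3, ?_⟩
    push_cast
    ring

theorem pid13_mul_3 {R : Type*} [CommRing R] (z : R)
    (hΦ : 1 + z + z ^ 2 + z ^ 3 + z ^ 4 + z ^ 5 + z ^ 6 + z ^ 7 + z ^ 8 + z ^ 9 + z ^ 10 + z ^ 11 + z ^ 12 = 0) :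
    (1 + z - z ^ 3) * (-1 - z ^ 2 - z ^ 3 - 2 * z ^ 5 - z ^ 7 - 2 * z ^ 8 + z ^ 9 - 3 * z ^ 10) = 3 := by
  linear_combination (-4 + 3 * z) * hΦ

theorem pid13_map_g3 :
    (X ^ 3 - X - 1 : ℤ[X]).map (Int.castRingHom (ZMod 3)) = X ^ 3 - X - 1 := by
  simp

theorem pid13_irred_g3 : Irreducible (X ^ 3 - X - 1 : (ZMod 3)[X]) := by
  have hdeg : (X ^ 3 - X - 1 : (ZMod 3)[X]).natDegree = 3 := by
    compute_degree!
  have hmonic : (X ^ 3 - X - 1 : (ZMod 3)[X]).Monic := by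
    monicity!
  rw [hmonic.irreducible_iff_roots_eq_zero_of_degree_le_three (by omega) (by omega)]
  refine Multiset.eq_zero_of_forall_notMem fun a ha => ?_
  have hroot := (Polynomial.mem_roots'.mp ha).2
  simp only [IsRoot.def, eval_sub, eval_pow, eval_X, eval_one] at hroot
  have key : ∀ b : ZMod 3, b ^ 3 - b - 1 ≠ 0 := by decide
  exact key a hroot

theorem pid13_dvd_g3 : (X ^ 3 - X - 1 : (ZMod 3)[X]) ∣ cyclotomic 13 (ZMod 3) := by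
  have : Fact (Nat.Prime 13) := ⟨by norm_num⟩
  have h3 : (3 : (ZMod 3)[X]) = 0 := by
    have := CharP.cast_eq_zero (ZMod 3)[X] 3
    exact_mod_cast this
  refine ⟨-1 - X ^ 2 - X ^ 3 + X ^ 5 - X ^ 7 + X ^ 8 + X ^ 9, ?_⟩
  rw [cyclotomic_prime]
  simp only [Finset.sum_range_succ, Finset.sum_range_zero]
  linear_combination (X ^ 5 + X ^ 6 + X ^ 9 + X ^ 10) * h3

theorem pid13_q3 (K : Type*) [Field K] [NumberField K] [IsCyclotomicExtension {13} ℚ K]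
    {ζ : K} (hζ : IsPrimitiveRoot ζ 13) :
    ∃ P ∈ Ideal.primesOver (Ideal.span {((3 : ℕ) : ℤ)}) (𝓞 K), Submodule.IsPrincipal P := by
  have : Fact (Nat.Prime 13) := ⟨by norm_num⟩
  have : Fact (Nat.Prime 3) := ⟨by norm_num⟩
  have hΦ := pid13_rel hζ
  have hg : aeval hζ.toInteger (X ^ 3 - X - 1 : ℤ[X]) = hζ.toInteger ^ 3 - hζ.toInteger - 1 := by
    simp
  refine exists_principal_primesOver 13 K hζ 3 (X ^ 3 - X - 1)
    (by rw [pid13_map_g3]; exact pid13_irred_g3) (by rw [pid13_map_g3]; exact pid13_dvd_g3)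
    (1 + hζ.toInteger - hζ.toInteger ^ 3) (-1 - hζ.toInteger ^ 2 - hζ.toInteger ^ 3 - 2 * hζ.toInteger ^ 5 - hζ.toInteger ^ 7 - 2 * hζ.toInteger ^ 8 + hζ.toInteger ^ 9 - 3 * hζ.toInteger ^ 10) (-1) ?_ ?_ ?_
  · have := pid13_mul_3 hζ.toInteger hΦ
    push_cast
    exact this
  · rw [hg]; ring
  · refine Ideal.mem_span_pair.mpr ⟨0, -1, ?_⟩
    rw [hg]; ring

theorem pid13_dec : ∀ q : Fin 308, (q : ℕ) ≤ 1 ∨
    (∃ d : Fin 18, 2 ≤ (d : ℕ) ∧ (d : ℕ) ∣ (q : ℕ) ∧ (d : ℕ) ≠ (q : ℕ)) ∨ (q : ℕ) = 13 ∨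
    (q : ℕ) ∈ [3, 53, 79, 131, 157] ∨
    ∀ j : Fin 10, 1 ≤ (j : ℕ) → (q : ℕ) ^ (j : ℕ) ≤ 307 → (q : ℕ) ^ (j : ℕ) % 13 ≠ 1 := by
  decide +kernel

/-- The ring of integers of the 13-th cyclotomic field is a principal ideal domain. -/
theorem pid_thirteen (K : Type*) [Field K] [NumberField K] [IsCyclotomicExtension {13} ℚ K] :
    IsPrincipalIdealRing (𝓞 K) := by
  have : Fact (Nat.Prime 13) := ⟨by norm_num⟩
  obtain ⟨ζ, hζ⟩ := IsCyclotomicExtension.exists_isPrimitiveRoot ℚ K (Set.mem_singleton 13)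
    (by norm_num)
  refine pid_of_cert 13 K (by norm_num) 307 9 (by norm_num) 1338717 (by norm_num) (by norm_num)
    (by norm_num [Nat.factorial]) [3, 53, 79, 131, 157] ?_ ?_
  · intro q hq hp
    rcases pid13_dec ⟨q, by omega⟩ with h | ⟨d, hd2, hdq, hne⟩ | h | h | h
    · exact absurd hp.two_le (by simpa using h)
    · rcases (Nat.dvd_prime hp).mp hdq with h1 | h1
      · omega
      · exact absurd h1 hne
    · exact Or.inl h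
    · exact Or.inr (Or.inl h)
    · refine Or.inr (Or.inr fun j hj hle => ?_)
      have hj' := Finset.mem_Icc.mp hj
      exact h ⟨j, by omega⟩ hj'.1 hle
  · intro q hq
    simp only [List.mem_cons, List.not_mem_nil, or_false] at hq
    rcases hq with rfl | rfl | rfl | rfl | rfl
    · exact pid13_q3 K hζ
    · exact pid13_q53 K hζ
    · exact pid13_q79 K hζ
    · exact pid13_q131 K hζ
    · exact pid13_q157 K hζ

end Fermat.Agent.S10
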