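import Mathlib.Algebra.Field.ZMod
import Mathlib.Algebra.Ring.GeomSum
import Mathlib.Data.Nat.Prime.Int
import Mathlib.Data.ZMod.Basic
import Mathlib.NumberTheory.Multiplicity
import Mathlib.RingTheory.Coprime.Lemmas
import Mathlib.RingTheory.Int.Basic
import Mathlib.RingTheory.PrincipalIdealDomain
import Fermat.Agent.S10.Defs

/-!
# Case I of Fermat's equation for `p = 5, 7, 11, 13` via Sophie Germain's theorem

`caseI_of_auxiliary_prime`: if `q` is a prime such that `x ^ p + y ^ p + z ^ p = 0` has only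
trivial solutions modulo `q` and `p` is not a `p`-th power modulo `q`, then `CaseI p` holds.
-/

set_option autoImplicit false

namespace Fermat.Agent.S10

namespace SG

open Finset

/-- The cofactor of `y + z` in `y ^ p + z ^ p` (for odd `p`). -/
def S (p : ℕ) (y z : ℤ) : ℤ := ∑ i ∈ range p, y ^ i * (-z) ^ (p - 1 - i)

theorem S_mul {p : ℕ} (hodd : Odd p) (y z : ℤ) : (y + z) * S p y z = y ^ p + z ^ p := by
  have h := geom_sum₂_mul y (-z) p
  rw [hodd.neg_pow, sub_neg_eq_add, sub_neg_eq_add] at h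
  rw [mul_comm]
  exact h

theorem coprime_S {p : ℕ} (hp : p.Prime) {y z : ℤ} (hyz : IsCoprime y z)
    (hpd : ¬ (p : ℤ) ∣ y + z) : IsCoprime (y + z) (S p y z) := by
  apply isCoprime_of_prime_dvd
  · rintro ⟨h0, -⟩
    exact hpd (h0 ▸ dvd_zero _)
  · intro d hd hd1 hd2
    have h3 : d ∣ y - (-z) := by rwa [sub_neg_eq_add]
    have h4 : d ∣ (p : ℤ) * (-z) ^ (p - 1) := (dvd_geom_sum₂_iff_of_dvd_sub h3).mp hd2
    rcases hd.dvd_or_dvd h4 with h5 | h5
    · have hpp : Prime (p : ℤ) := Nat.prime_iff_prime_int.mp hp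
      have h6 : Associated d (p : ℤ) := (hd.dvd_prime_iff_associated hpp).mp h5
      exact hpd (h6.symm.dvd.trans hd1)
    · have h6 : d ∣ -z := hd.dvd_of_dvd_pow h5
      have h7 : d ∣ z := dvd_neg.mp h6
      have h8 : d ∣ y := (dvd_add_left h7).mp hd1
      exact hd.not_isUnit (hyz.isUnit_of_dvd' h8 h7)

theorem exists_pow {p : ℕ} (hp : p.Prime) (hodd : Odd p) {x y z : ℤ}
    (h : x ^ p + y ^ p + z ^ p = 0) (hyz : IsCoprime y z) (hx : ¬ (p : ℤ) ∣ x) :
    ∃ A α : ℤ, y + z = A ^ p ∧ S p y z = α ^ p := by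
  have hmul : (y + z) * S p y z = (-x) ^ p := by
    rw [S_mul hodd, hodd.neg_pow]
    linarith
  have hpd : ¬ (p : ℤ) ∣ y + z := by
    intro hd
    have h1 : (p : ℤ) ∣ (-x) ^ p := hmul ▸ Dvd.dvd.mul_right hd _
    have h2 : (p : ℤ) ∣ -x := (Nat.prime_iff_prime_int.mp hp).dvd_of_dvd_pow h1
    exact hx (dvd_neg.mp h2)
  obtain ⟨⟨A, hA⟩, ⟨α, hα⟩⟩ :=
    Int.eq_pow_of_mul_eq_pow_odd (coprime_S hp hyz hpd) hodd hmul
  exact ⟨A, α, hA, hα⟩

theorem not_both_zero {q : ℕ} [Fact q.Prime] {x y : ℤ} (hxy : IsCoprime x y)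
    (hx : (x : ZMod q) = 0) (hy : (y : ZMod q) = 0) : False := by
  have h1 : (q : ℤ) ∣ x := (ZMod.intCast_zmod_eq_zero_iff_dvd x q).mp hx
  have h2 : (q : ℤ) ∣ y := (ZMod.intCast_zmod_eq_zero_iff_dvd y q).mp hy
  exact (Nat.prime_iff_prime_int.mp (Fact.out : q.Prime)).not_isUnit (hxy.isUnit_of_dvd' h1 h2)

theorem key {p q : ℕ} (hp : p.Prime) (hodd : Odd p) [Fact q.Prime]
    (h1 : ∀ x y z : ZMod q, x ^ p + y ^ p + z ^ p = 0 → x = 0 ∨ y = 0 ∨ z = 0)
    (h2 : ∀ w : ZMod q, w ^ p ≠ (p : ZMod q))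
    {x y z : ℤ} (h : x ^ p + y ^ p + z ^ p = 0)
    (hxy : IsCoprime x y) (hyz : IsCoprime y z) (hzx : IsCoprime z x)
    (hx : ¬ (p : ℤ) ∣ x) (hy : ¬ (p : ℤ) ∣ y) (hz : ¬ (p : ℤ) ∣ z)
    (hqx : (x : ZMod q) = 0) : False := by
  obtain ⟨A, α, hA, hα⟩ := exists_pow hp hodd h hyz hx
  obtain ⟨B, -, hB, -⟩ := exists_pow hp hodd (x := y) (y := z) (z := x) (by linarith) hzx hy
  obtain ⟨C, γ, hC, hγ⟩ := exists_pow hp hodd (x := z) (y := x) (z := y) (by linarith) hxy hz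
  have hp0 : p ≠ 0 := hp.ne_zero
  have hA' : (y : ZMod q) + z = (A : ZMod q) ^ p := by
    exact_mod_cast congrArg (Int.cast : ℤ → ZMod q) hA
  have hB' : (z : ZMod q) + x = (B : ZMod q) ^ p := by
    exact_mod_cast congrArg (Int.cast : ℤ → ZMod q) hB
  have hC' : (x : ZMod q) + y = (C : ZMod q) ^ p := by
    exact_mod_cast congrArg (Int.cast : ℤ → ZMod q) hC
  have hqy : (y : ZMod q) ≠ 0 := fun hy0 => not_both_zero hxy hqx hy0
  have hqz : (z : ZMod q) ≠ 0 := fun hz0 => not_both_zero hzx hz0 hqx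
  have hsum : (B : ZMod q) ^ p + (C : ZMod q) ^ p + (-(A : ZMod q)) ^ p = 0 := by
    rw [hodd.neg_pow, ← hA', ← hB', ← hC', hqx]
    ring
  rcases h1 _ _ _ hsum with hB0 | hC0 | hA0
  · apply hqz
    rw [hB0, zero_pow hp0, hqx, add_zero] at hB'
    exact hB'
  · apply hqy
    rw [hC0, zero_pow hp0, hqx, zero_add] at hC'
    exact hC'
  · have hA0' : (A : ZMod q) = 0 := neg_eq_zero.mp hA0
    rw [hA0', zero_pow hp0] at hA'
    have hyz' : -(z : ZMod q) = (y : ZMod q) := (eq_neg_of_add_eq_zero_left hA').symm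
    have hα' : (α : ZMod q) ^ p = (p : ZMod q) * (y : ZMod q) ^ (p - 1) := by
      have e := congrArg (Int.castRingHom (ZMod q)) hα
      rw [S, RingHom.map_geom_sum₂] at e
      simp only [eq_intCast, Int.cast_neg, Int.cast_pow] at e
      rw [hyz', geom_sum₂_self] at e
      exact e.symm
    have hγ' : (γ : ZMod q) ^ p = (y : ZMod q) ^ (p - 1) := by
      have e := congrArg (Int.cast : ℤ → ZMod q) (S_mul hodd x y)
      rw [hγ] at e
      push_cast at e
      rw [hqx, zero_add, zero_pow hp0, zero_add, ← mul_pow_sub_one hp0 (y : ZMod q)] at e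
      exact mul_left_cancel₀ hqy e
    refine h2 ((α : ZMod q) * (γ : ZMod q)⁻¹) ?_
    rw [mul_pow, inv_pow, hα', hγ', mul_inv_cancel_right₀ (pow_ne_zero _ hqy)]

/-- Sophie Germain's theorem with an auxiliary prime `q`. -/
theorem caseI_of_auxiliary_prime {p q : ℕ} (hp : p.Prime) (hp2 : p ≠ 2) (hq : q.Prime)
    (h1 : ∀ x y z : ZMod q, x ^ p + y ^ p + z ^ p = 0 → x = 0 ∨ y = 0 ∨ z = 0)
    (h2 : ∀ w : ZMod q, w ^ p ≠ (p : ZMod q)) : CaseI p := by
  intro a b c hab hpabc habc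
  have : Fact q.Prime := ⟨hq⟩
  have hodd : Odd p := hp.odd_of_ne_two hp2
  have hp0 : p ≠ 0 := hp.ne_zero
  have hpa : ¬ (p : ℤ) ∣ a := fun h => hpabc (Dvd.dvd.mul_right (Dvd.dvd.mul_right h b) c)
  have hpb : ¬ (p : ℤ) ∣ b := fun h => hpabc (Dvd.dvd.mul_right (Dvd.dvd.mul_left h a) c)
  have hpc : ¬ (p : ℤ) ∣ -c := fun h => hpabc (Dvd.dvd.mul_left (dvd_neg.mp h) (a * b))
  have h : a ^ p + b ^ p + (-c) ^ p = 0 := by
    rw [hodd.neg_pow, habc]
    ring
  have hca : IsCoprime (-c) a := by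
    have h3 : IsCoprime (b ^ p + a * a ^ (p - 1)) a :=
      (hab.symm.pow_left (m := p)).add_mul_left_left _
    rw [mul_pow_sub_one hp0, add_comm, habc] at h3
    exact ((IsCoprime.pow_left_iff hp.pos).mp h3).neg_left
  have hbc : IsCoprime b (-c) := by
    have h3 : IsCoprime (a ^ p + b * b ^ (p - 1)) b :=
      (hab.pow_left (m := p)).add_mul_left_left _
    rw [mul_pow_sub_one hp0, habc] at h3
    exact ((IsCoprime.pow_left_iff hp.pos).mp h3).symm.neg_right
  have hmod : (a : ZMod q) ^ p + (b : ZMod q) ^ p + ((-c : ℤ) : ZMod q) ^ p = 0 := by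
    exact_mod_cast congrArg (Int.cast : ℤ → ZMod q) h
  rcases h1 _ _ _ hmod with h0 | h0 | h0
  · exact key hp hodd h1 h2 h hab hbc hca hpa hpb hpc h0
  · exact key hp hodd h1 h2 (x := b) (y := -c) (z := a) (by linarith) hbc hca hab
      hpb hpc hpa h0
  · exact key hp hodd h1 h2 (x := -c) (y := a) (z := b) (by linarith) hca hab hbc
      hpc hpa hpb h0

/-- A convenient form: the nonzero `p`-th powers modulo `q` lie in a set `L`, no three
elements of which sum to zero. -/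
theorem caseI_of_pow_mem {p q : ℕ} (hp : p.Prime) (hp2 : p ≠ 2) (hq : q.Prime)
    (L : Finset (ZMod q)) (hL : ∀ x : ZMod q, x ≠ 0 → x ^ p ∈ L)
    (hsum : ∀ a ∈ L, ∀ b ∈ L, ∀ c ∈ L, a + b + c ≠ 0)
    (h2 : ∀ w : ZMod q, w ^ p ≠ (p : ZMod q)) : CaseI p := by
  refine caseI_of_auxiliary_prime hp hp2 hq ?_ h2
  intro x y z hxyz
  by_contra hne
  rw [not_or, not_or] at hne
  exact hsum _ (hL x hne.1) _ (hL y hne.2.1) _ (hL z hne.2.2) hxyz

end SG

theorem caseI_five : CaseI 5 :=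
  SG.caseI_of_pow_mem (p := 5) (q := 11) (by decide) (by decide) (by decide)
    {1, 10} (by decide) (by decide) (by decide)

set_option maxRecDepth 8000 in
theorem caseI_seven : CaseI 7 :=
  SG.caseI_of_pow_mem (p := 7) (q := 29) (by decide) (by decide) (by decide)
    {1, 12, 17, 28} (by decide) (by decide) (by decide)

theorem caseI_eleven : CaseI 11 :=
  SG.caseI_of_pow_mem (p := 11) (q := 23) (by decide) (by decide) (by decide)
    {1, 22} (by decide) (by decide) (by decide)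

set_option maxRecDepth 8000 in
theorem caseI_thirteen : CaseI 13 :=
  SG.caseI_of_pow_mem (p := 13) (q := 53) (by decide) (by decide) (by decide)
    {1, 23, 30, 52} (by decide) (by decide) (by decide)

end Fermat.Agent.S10
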