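import Fermat.Agent.S10.Reduce
import Fermat.Agent.S10.SophieGermain
import Fermat.Agent.S10.CaseII
import Fermat.Agent.S10.KummerCrit
import Fermat.Agent.S10.Cert13
import Fermat.Agent.S10.PID13

set_option autoImplicit false

namespace Fermat.Agent.S10

/-- Fermat's Last Theorem for the exponent 13. -/
theorem flt_thirteen : FermatLastTheoremFor 13 := by
  have : Fact (Nat.Prime 13) := ⟨by norm_num⟩
  have : IsCyclotomicExtension {13} ℚ (CyclotomicField 13 ℚ) :=
    CyclotomicField.isCyclotomicExtension 13 ℚ
  have := pid_thirteen (CyclotomicField 13 ℚ)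
  exact flt_of_caseI_of_caseII 13 (by norm_num) caseI_thirteen
    (caseII_of_pid_of_kummer 13 (by norm_num) (CyclotomicField 13 ℚ)
      (kummerLemma_of_cert 13 (by norm_num) _ kummerCert_thirteen))

end Fermat.Agent.S10
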