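import Fermat.Agent.S10.Reduce
import Fermat.Agent.S10.SophieGermain
import Fermat.Agent.S10.CaseII
import Fermat.Agent.S10.KummerCrit
import Fermat.Agent.S10.Cert5
import Mathlib.NumberTheory.NumberField.Cyclotomic.PID

set_option autoImplicit false

namespace Fermat.Agent.S10

/-- Fermat's Last Theorem for the exponent 5. -/
theorem flt_five : FermatLastTheoremFor 5 := by
  have : Fact (Nat.Prime 5) := ⟨by norm_num⟩
  have : IsCyclotomicExtension {5} ℚ (CyclotomicField 5 ℚ) :=
    CyclotomicField.isCyclotomicExtension 5 ℚ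
  have := IsCyclotomicExtension.Rat.five_pid (CyclotomicField 5 ℚ)
  exact flt_of_caseI_of_caseII 5 (by norm_num) caseI_five
    (caseII_of_pid_of_kummer 5 (by norm_num) (CyclotomicField 5 ℚ)
      (kummerLemma_of_cert 5 (by norm_num) _ kummerCert_five))

end Fermat.Agent.S10
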