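import Fermat.Agent.S10.Defs

set_option autoImplicit false

namespace Fermat.Agent.S10

open Polynomial

namespace Cert7

noncomputable def W : ℕ → ℤ[X]
  | 0 => 1 + 6 * X + X ^ 2 + 6 * X ^ 3 + X ^ 4
  | 1 => 4 + 5 * X + X ^ 2 + 3 * X ^ 3 + 2 * X ^ 4
  | 2 => 1 + 2 * X + 4 * X ^ 3 + 3 * X ^ 4
  | _ => 0

noncomputable def Q : ℕ → ℤ[X]
  | 0 => 1
  | 1 => 2
  | 2 => 13 + 3 * X
  | _ => 0

noncomputable def R : ℕ → ℤ[X]
  | 0 => X + X ^ 2 + X ^ 3 + X ^ 4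
  | 1 => 1 + 2 * X + X ^ 2 + X ^ 3 + X ^ 4
  | 2 => X + X ^ 2 + 2 * X ^ 3 + 3 * X ^ 4
  | _ => 0

theorem id0 : W 0 * (unitPoly 0).comp (X + 1) - (derivative (unitPoly 0)).comp (X + 1)
    = X ^ (7 - 2) * Q 0 + ((7 : ℕ) : ℤ[X]) * R 0 := by
  simp [W, Q, R, unitPoly]
  ring

theorem id1 : W 1 * (unitPoly 1).comp (X + 1) - (derivative (unitPoly 1)).comp (X + 1)
    = X ^ (7 - 2) * Q 1 + ((7 : ℕ) : ℤ[X]) * R 1 := by
  simp [W, Q, R, unitPoly, Finset.sum_range_succ]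
  ring

theorem id2 : W 2 * (unitPoly 2).comp (X + 1) - (derivative (unitPoly 2)).comp (X + 1)
    = X ^ (7 - 2) * Q 2 + ((7 : ℕ) : ℤ[X]) * R 2 := by
  simp [W, Q, R, unitPoly, Finset.sum_range_succ]
  ring

theorem ids : ∀ k : Fin 3, W k * (unitPoly (k : ℕ)).comp (X + 1)
      - (derivative (unitPoly (k : ℕ))).comp (X + 1)
    = X ^ (7 - 2) * Q k + ((7 : ℕ) : ℤ[X]) * R k := by
  intro k
  fin_cases k
  · exact id0
  · exact id1
  · exact id2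

theorem indep : ∀ c : Fin 3 → ZMod 7,
    (∀ i : ℕ, i < 7 - 2 → ∑ k, c k * (((W k).coeff i : ℤ) : ZMod 7) = 0) → c = 0 := by
  intro c h
  have h0 := h 0 (by norm_num)
  have h1 := h 1 (by norm_num)
  have h2 := h 3 (by norm_num)
  simp [Fin.sum_univ_succ, W, coeff_one, coeff_X] at h0 h1 h2
  have hp : (7 : ZMod 7) = 0 := by decide
  have e0 : c 0 = 0 := by
    linear_combination 5 * h1 + 1 * h2 - (5 * c 0 + 4 * c 1 + 2 * c 2) * hp
  have e1 : c 1 = 0 := by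
    linear_combination 3 * h0 + 4 * h1 + 6 * h2 - (9 * c 0 + 7 * c 1 + 5 * c 2) * hp
  have e2 : c 2 = 0 := by
    linear_combination 3 * h0 + 3 * h2 - (3 * c 0 + 3 * c 1 + 2 * c 2) * hp
  funext k
  fin_cases k
  · exact e0
  · exact e1
  · exact e2

end Cert7

theorem kummerCert_seven : KummerCert 7 :=
  ⟨fun k => Cert7.W k, fun k => Cert7.Q k, fun k => Cert7.R k, Cert7.ids, Cert7.indep⟩

end Fermat.Agent.S10
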