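import Mathlib
import Fermat.Agent.S10.PIDLemmas

set_option autoImplicit false

namespace Fermat.Agent.S10

open NumberField Polynomial

theorem pid_seven (K : Type*) [Field K] [NumberField K] [IsCyclotomicExtension {7} ℚ K] :
    IsPrincipalIdealRing (𝓞 K) := by
  have : Fact (Nat.Prime 7) := ⟨by norm_num⟩
  refine pid_of_cert 7 K (by norm_num) 4 3 (by norm_num) 130 (by norm_num) (by norm_num)
    ?_ [] ?_ ?_
  · norm_num [Nat.factorial]
  · intro q hq hprime
    interval_cases q <;> first
      | (exfalso; revert hprime; norm_num; done)
      | (right; right; decide)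
  · intro q hq
    simp at hq

end Fermat.Agent.S10
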