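import Fermat.Agent.S10.Reduce
import Fermat.Agent.S10.SophieGermain
import Fermat.Agent.S10.CaseII
import Fermat.Agent.S10.KummerCrit
import Fermat.Agent.S10.Cert7
import Fermat.Agent.S10.PID7

set_option autoImplicit false

namespace Fermat.Agent.S10

/-- Fermat's Last Theorem for the exponent 7. -/
theorem flt_seven : FermatLastTheoremFor 7 := by
  have : Fact (Nat.Prime 7) := ⟨by norm_num⟩
  have : IsCyclotomicExtension {7} ℚ (CyclotomicField 7 ℚ) :=
    CyclotomicField.isCyclotomicExtension 7 ℚ
  have := pid_seven (CyclotomicField 7 ℚ)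
  exact flt_of_caseI_of_caseII 7 (by norm_num) caseI_seven
    (caseII_of_pid_of_kummer 7 (by norm_num) (CyclotomicField 7 ℚ)
      (kummerLemma_of_cert 7 (by norm_num) _ kummerCert_seven))

end Fermat.Agent.S10
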