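import Fermat.Agent.S10.CycloLemmas

set_option autoImplicit false

namespace Fermat.Agent.S10

open NumberField Polynomial

variable {p : ℕ} [Fact p.Prime] {K : Type*} [Field K] [NumberField K]
  [IsCyclotomicExtension {p} ℚ K] {ζ : K} (hζ : IsPrimitiveRoot ζ p)

/-- Kummer step of the descent: the unit `η` in `ρ₁ ^ p + η * ρ₂ ^ p = λ ^ p * w` is a `p`-th
power as soon as Kummer's lemma holds. -/
theorem exists_unit_pow_eq_of_dvd (hK : KummerLemma p K) {ρ₁ ρ₂ w : 𝓞 K} (η : (𝓞 K)ˣ)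
    (hρ₂ : ¬ (hζ.toInteger - 1) ∣ ρ₂)
    (h : ρ₁ ^ p + (η : 𝓞 K) * ρ₂ ^ p = (hζ.toInteger - 1) ^ p * w) :
    ∃ δ : (𝓞 K)ˣ, η = δ ^ p := by
  have hp : p.Prime := Fact.out
  have hlam : Prime (hζ.toInteger - 1) := hζ.zeta_sub_one_prime'
  obtain ⟨n₁, hn₁⟩ := exists_int_pow_sub_dvd hζ ρ₁
  obtain ⟨n₂, hn₂⟩ := exists_int_pow_sub_dvd hζ ρ₂
  -- `p ∤ n₂`
  have hpn₂ : ¬ (p : ℤ) ∣ n₂ := by
    intro hdvd
    have h1 : (hζ.toInteger - 1) ∣ (n₂ : 𝓞 K) := (intCast_lambda_dvd_iff hζ n₂).2 hdvd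
    have h2 : (hζ.toInteger - 1) ∣ ρ₂ ^ p - (n₂ : 𝓞 K) :=
      dvd_trans (dvd_pow_self _ hp.ne_zero) hn₂
    have h3 : (hζ.toInteger - 1) ∣ ρ₂ ^ p := by
      have := dvd_add h2 h1
      rwa [sub_add_cancel] at this
    exact hρ₂ (hlam.dvd_of_dvd_pow h3)
  -- Bezout
  have hcop : IsCoprime n₂ (p : ℤ) :=
    ((Nat.prime_iff_prime_int.1 hp).coprime_iff_not_dvd.2 hpn₂).symm
  obtain ⟨k, t, hkt⟩ := hcop
  -- the main congruence modulo `λ ^ p`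
  have hmain : (hζ.toInteger - 1) ^ p ∣ (n₁ : 𝓞 K) + (η : 𝓞 K) * (n₂ : 𝓞 K) := by
    obtain ⟨c₁, hc₁⟩ := hn₁
    obtain ⟨c₂, hc₂⟩ := hn₂
    refine ⟨w - c₁ - (η : 𝓞 K) * c₂, ?_⟩
    have e₁ : ρ₁ ^ p = (n₁ : 𝓞 K) + (hζ.toInteger - 1) ^ p * c₁ := by
      rw [← hc₁]; ring
    have e₂ : ρ₂ ^ p = (n₂ : 𝓞 K) + (hζ.toInteger - 1) ^ p * c₂ := by
      rw [← hc₂]; ring
    rw [e₁, e₂] at h
    linear_combination h
  have hpdvd : (p : 𝓞 K) ∣ (n₁ : 𝓞 K) + (η : 𝓞 K) * (n₂ : 𝓞 K) :=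
    dvd_trans (natCast_dvd_lambda_pow hζ) hmain
  have hkt' : (k : 𝓞 K) * (n₂ : 𝓞 K) + (t : 𝓞 K) * (p : 𝓞 K) = 1 := by
    have := congrArg (Int.cast : ℤ → 𝓞 K) hkt
    push_cast at this
    exact this
  refine hK η ⟨-(k * n₁), ?_⟩
  obtain ⟨d, hd⟩ := hpdvd
  refine ⟨(k : 𝓞 K) * d + (η : 𝓞 K) * (t : 𝓞 K), ?_⟩
  push_cast
  linear_combination (k : 𝓞 K) * hd - (η : 𝓞 K) * hkt'

/-- From an integral Case II solution to a solution of the generalised equation in `𝓞 K`. -/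
theorem exists_gen_of_int {a b c : ℤ} (hc : c ≠ 0) (hb : ¬ (p : ℤ) ∣ b) (hpc : (p : ℤ) ∣ c)
    (hab : IsCoprime a b) (h : a ^ p + b ^ p = c ^ p) :
    ∃ (m : ℕ) (x y z : 𝓞 K) (u : (𝓞 K)ˣ), 1 ≤ m ∧ ¬ (hζ.toInteger - 1) ∣ y ∧
      ¬ (hζ.toInteger - 1) ∣ z ∧ IsCoprime x y ∧
      x ^ p + y ^ p = (u : 𝓞 K) * ((hζ.toInteger - 1) ^ m * z) ^ p := by
  obtain ⟨m, c', hm, hc', hcc'⟩ := exists_eq_lambda_pow_mul hζ hc hpc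
  refine ⟨m, (a : 𝓞 K), (b : 𝓞 K), c', 1, hm, ?_, hc', ?_, ?_⟩
  · exact fun hdvd => hb ((intCast_lambda_dvd_iff hζ b).1 hdvd)
  · exact hab.intCast
  · rw [← hcc', Units.val_one, one_mul]
    exact_mod_cast congrArg (Int.cast : ℤ → 𝓞 K) h

/-- In the generalised equation we may assume `λ ^ 2 ∣ x + y`. -/
theorem exists_lambda_sq_dvd_add (hp2 : p ≠ 2) {m : ℕ} (hm : 1 ≤ m) {x y z : 𝓞 K}
    {u : (𝓞 K)ˣ} (hy : ¬ (hζ.toInteger - 1) ∣ y) (hxy : IsCoprime x y)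
    (h : x ^ p + y ^ p = (u : 𝓞 K) * ((hζ.toInteger - 1) ^ m * z) ^ p) :
    ∃ y' : 𝓞 K, ¬ (hζ.toInteger - 1) ∣ y' ∧ IsCoprime x y' ∧
      x ^ p + y' ^ p = (u : 𝓞 K) * ((hζ.toInteger - 1) ^ m * z) ^ p ∧
      (hζ.toInteger - 1) ^ 2 ∣ x + y' := by
  have hp : p.Prime := Fact.out
  have hζp : hζ.toInteger ^ p = 1 := hζ.toInteger_isPrimitiveRoot.pow_eq_one
  have hdvd : (hζ.toInteger - 1) ∣ x ^ p + y ^ p := by
    rw [h]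
    refine Dvd.dvd.mul_left ?_ _
    refine dvd_pow ?_ hp.ne_zero
    exact Dvd.dvd.mul_right (dvd_pow_self _ (by omega)) _
  have hadd : (hζ.toInteger - 1) ∣ x + y := lambda_dvd_add_of_dvd_pow_add_pow hζ hp2 hdvd
  obtain ⟨i, -, hi⟩ := exists_lambda_sq_dvd hζ hadd hy
  have hunit : IsUnit (hζ.toInteger ^ i) :=
    (IsUnit.of_pow_eq_one hζp hp.ne_zero).pow i
  refine ⟨hζ.toInteger ^ i * y, ?_, ?_, ?_, hi⟩
  · intro hd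
    exact hy ((hunit.dvd_mul_left).1 hd)
  · exact (isCoprime_mul_unit_left_right hunit x y).2 hxy
  · rw [mul_pow, ← pow_mul, mul_comm i p, pow_mul, hζp, one_pow, one_mul, h]

end Fermat.Agent.S10
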