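import Fermat.Agent.S10.Defs

set_option autoImplicit false

namespace Fermat.Agent.S10

open Polynomial

namespace Cert11

noncomputable def W : ℕ → ℤ[X]
  | 0 => 1 + 10 * X + X ^ 2 + 10 * X ^ 3 + X ^ 4 + 10 * X ^ 5 + X ^ 6 + 10 * X ^ 7 + X ^ 8
  | 1 => 6 + 8 * X + 7 * X ^ 2 + 2 * X ^ 3 + 10 * X ^ 4 + 6 * X ^ 5 + 8 * X ^ 6 + 7 * X ^ 7 + 2 * X ^ 8
  | 2 => 1 + 7 * X + 5 * X ^ 3 + 6 * X ^ 4 + 7 * X ^ 5 + 2 * X ^ 6 + 3 * X ^ 7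
  | 3 => 7 + 8 * X + X ^ 2 + 8 * X ^ 3 + 7 * X ^ 4 + 6 * X ^ 5 + 4 * X ^ 6
  | 4 => 2 + 10 * X ^ 2 + 3 * X ^ 3 + 6 * X ^ 5 + 5 * X ^ 6 + 6 * X ^ 7 + 5 * X ^ 8
  | _ => 0

noncomputable def Q : ℕ → ℤ[X]
  | 0 => 1
  | 1 => 2
  | 2 => 3
  | 3 => 4
  | 4 => 141 + 85 * X + 31 * X ^ 2 + 5 * X ^ 3
  | _ => 0

noncomputable def R : ℕ → ℤ[X]
  | 0 => X + X ^ 2 + X ^ 3 + X ^ 4 + X ^ 5 + X ^ 6 + X ^ 7 + X ^ 8
  | 1 => 1 + 2 * X + 2 * X ^ 2 + X ^ 3 + 2 * X ^ 4 + 2 * X ^ 5 + 2 * X ^ 6 + 2 * X ^ 7 + X ^ 8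
  | 2 => 2 * X + 2 * X ^ 2 + 2 * X ^ 3 + 3 * X ^ 4 + 4 * X ^ 5 + 3 * X ^ 6 + 2 * X ^ 7 + X ^ 8
  | 3 => 2 + 6 * X + 7 * X ^ 2 + 7 * X ^ 3 + 8 * X ^ 4 + 9 * X ^ 5 + 8 * X ^ 6 + 5 * X ^ 7 + 2 * X ^ 8
  | 4 => 5 * X ^ 2 + 11 * X ^ 3 + 12 * X ^ 4 + 10 * X ^ 5 + 10 * X ^ 6 + 13 * X ^ 7 + 15 * X ^ 8
  | _ => 0

theorem id0 : W 0 * (unitPoly 0).comp (X + 1) - (derivative (unitPoly 0)).comp (X + 1)
    = X ^ (11 - 2) * Q 0 + ((11 : ℕ) : ℤ[X]) * R 0 := by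
  simp [W, Q, R, unitPoly]
  ring

theorem id1 : W 1 * (unitPoly 1).comp (X + 1) - (derivative (unitPoly 1)).comp (X + 1)
    = X ^ (11 - 2) * Q 1 + ((11 : ℕ) : ℤ[X]) * R 1 := by
  simp [W, Q, R, unitPoly, Finset.sum_range_succ]
  ring

theorem id2 : W 2 * (unitPoly 2).comp (X + 1) - (derivative (unitPoly 2)).comp (X + 1)
    = X ^ (11 - 2) * Q 2 + ((11 : ℕ) : ℤ[X]) * R 2 := by
  simp [W, Q, R, unitPoly, Finset.sum_range_succ]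
  ring

theorem id3 : W 3 * (unitPoly 3).comp (X + 1) - (derivative (unitPoly 3)).comp (X + 1)
    = X ^ (11 - 2) * Q 3 + ((11 : ℕ) : ℤ[X]) * R 3 := by
  simp [W, Q, R, unitPoly, Finset.sum_range_succ]
  ring

theorem id4 : W 4 * (unitPoly 4).comp (X + 1) - (derivative (unitPoly 4)).comp (X + 1)
    = X ^ (11 - 2) * Q 4 + ((11 : ℕ) : ℤ[X]) * R 4 := by
  simp [W, Q, R, unitPoly, Finset.sum_range_succ]
  ring

theorem ids : ∀ k : Fin 5, W k * (unitPoly (k : ℕ)).comp (X + 1)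
      - (derivative (unitPoly (k : ℕ))).comp (X + 1)
    = X ^ (11 - 2) * Q k + ((11 : ℕ) : ℤ[X]) * R k := by
  intro k
  fin_cases k
  · exact id0
  · exact id1
  · exact id2
  · exact id3
  · exact id4

theorem indep : ∀ c : Fin 5 → ZMod 11,
    (∀ i : ℕ, i < 11 - 2 → ∑ k, c k * (((W k).coeff i : ℤ) : ZMod 11) = 0) → c = 0 := by
  intro c h
  have h0 := h 0 (by norm_num)
  have h1 := h 1 (by norm_num)
  have h2 := h 3 (by norm_num)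
  have h3 := h 5 (by norm_num)
  have h4 := h 7 (by norm_num)
  simp [Fin.sum_univ_succ, W, coeff_one, coeff_X] at h0 h1 h2 h3 h4
  have hp : (11 : ZMod 11) = 0 := by decide
  have e0 : c 0 = 0 := by
    linear_combination 9 * h0 + 1 * h1 + 9 * h2 + 9 * h4 - (18 * c 0 + 13 * c 1 + 8 * c 2 + 13 * c 3 + 9 * c 4) * hp
  have e1 : c 1 = 0 := by
    linear_combination 6 * h0 + 8 * h1 + 8 * h3 + 1 * h4 - (16 * c 0 + 14 * c 1 + 11 * c 2 + 14 * c 3 + 6 * c 4) * hp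
  have e2 : c 2 = 0 := by
    linear_combination 7 * h0 + 7 * h1 + 1 * h2 + 5 * h3 + 5 * h4 - (17 * c 0 + 15 * c 1 + 10 * c 2 + 13 * c 3 + 7 * c 4) * hp
  have e3 : c 3 = 0 := by
    linear_combination 4 * h1 + 3 * h2 + 4 * h4 - (10 * c 0 + 6 * c 1 + 5 * c 2 + 5 * c 3 + 3 * c 4) * hp
  have e4 : c 4 = 0 := by
    linear_combination 2 * h0 + 2 * h1 + 1 * h2 + 1 * h3 + 9 * h4 - (12 * c 0 + 9 * c 1 + 5 * c 2 + 4 * c 3 + 6 * c 4) * hp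
  funext k
  fin_cases k
  · exact e0
  · exact e1
  · exact e2
  · exact e3
  · exact e4

end Cert11

theorem kummerCert_eleven : KummerCert 11 :=
  ⟨fun k => Cert11.W k, fun k => Cert11.Q k, fun k => Cert11.R k, Cert11.ids, Cert11.indep⟩

end Fermat.Agent.S10
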