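import Fermat.Agent.S10.Defs
import Mathlib.NumberTheory.NumberField.Cyclotomic.Ideal

set_option autoImplicit false
set_option linter.unusedSectionVars false

namespace Fermat.Agent.S10

open NumberField Finset

variable {p : ℕ} [hp : Fact p.Prime] {K : Type*} [Field K] [NumberField K]
  [IsCyclotomicExtension {p} ℚ K] {ζ : K} (hζ : IsPrimitiveRoot ζ p)

namespace CycloLemmas

theorem primitiveRoot_pow_mod {M : Type*} [CommMonoid M] {z : M} {k : ℕ}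
    (hz : IsPrimitiveRoot z k) (i : ℕ) : z ^ (i % k) = z ^ i := by
  rw [hz.eq_orderOf]; exact pow_mod_orderOf _ _

theorem prime_lambda : Prime (hζ.toInteger - 1) := hζ.zeta_sub_one_prime'

theorem lambda_dvd_one_sub_of_mem {η : 𝓞 K} (hη : η ∈ Polynomial.nthRootsFinset p (1 : 𝓞 K)) :
    (hζ.toInteger - 1) ∣ 1 - η :=
  hζ.toInteger_isPrimitiveRoot.sub_one_dvd_sub hp.out
    (by rw [Polynomial.mem_nthRootsFinset hp.out.pos]; exact one_pow p) hη

theorem isUnit_zeta : IsUnit hζ.toInteger :=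
  hζ.toInteger_isPrimitiveRoot.isUnit hp.out.ne_zero

theorem zeta_pow_mem (i : ℕ) : hζ.toInteger ^ i ∈ Polynomial.nthRootsFinset p (1 : 𝓞 K) := by
  rw [Polynomial.mem_nthRootsFinset hp.out.pos, ← pow_mul, mul_comm, pow_mul,
    hζ.toInteger_isPrimitiveRoot.pow_eq_one, one_pow]

theorem lambda_dvd_zeta_pow_sub_one (i : ℕ) : (hζ.toInteger - 1) ∣ hζ.toInteger ^ i - 1 := by
  simpa using sub_dvd_pow_sub_pow hζ.toInteger 1 i

/-- `ζ ^ i - 1 = λ * (i + λ * s)` for some `s`. -/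
theorem zeta_pow_sub_one_eq (i : ℕ) :
    ∃ s : 𝓞 K, hζ.toInteger ^ i - 1 =
      (hζ.toInteger - 1) * ((i : 𝓞 K) + (hζ.toInteger - 1) * s) := by
  have h1 : hζ.toInteger ^ i - 1 =
      (hζ.toInteger - 1) * ∑ k ∈ Finset.range i, hζ.toInteger ^ k := by
    rw [mul_comm, geom_sum_mul]
  have h2 : (hζ.toInteger - 1) ∣ (∑ k ∈ Finset.range i, hζ.toInteger ^ k) - (i : 𝓞 K) := by
    have : (∑ k ∈ Finset.range i, hζ.toInteger ^ k) - (i : 𝓞 K) =
        ∑ k ∈ Finset.range i, (hζ.toInteger ^ k - 1) := by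
      rw [Finset.sum_sub_distrib]; simp
    rw [this]
    exact Finset.dvd_sum fun k _ => lambda_dvd_zeta_pow_sub_one hζ k
  obtain ⟨s, hs⟩ := h2
  refine ⟨s, ?_⟩
  rw [h1, ← hs]; ring

end CycloLemmas

open CycloLemmas

theorem intCast_lambda_dvd_iff (n : ℤ) : (hζ.toInteger - 1) ∣ (n : 𝓞 K) ↔ (p : ℤ) ∣ n :=
  IsCyclotomicExtension.Rat.zeta_sub_one_dvd_intCast_iff' p hζ

theorem exists_int_sub_dvd (x : 𝓞 K) : ∃ n : ℤ, (hζ.toInteger - 1) ∣ x - (n : 𝓞 K) := by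
  have htop : Algebra.adjoin ℤ {hζ.toInteger} = ⊤ := by
    have := hζ.integralPowerBasis.adjoin_gen_eq_top
    rwa [hζ.integralPowerBasis_gen] at this
  have hx : x ∈ Algebra.adjoin ℤ {hζ.toInteger} := htop ▸ Algebra.mem_top
  induction hx using Algebra.adjoin_induction with
  | mem y hy =>
    rw [Set.mem_singleton_iff] at hy
    exact ⟨1, by rw [hy, Int.cast_one]⟩
  | algebraMap r => exact ⟨r, by simp⟩
  | add y z _ _ hy hz =>
    obtain ⟨m, hm⟩ := hy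
    obtain ⟨n, hn⟩ := hz
    refine ⟨m + n, ?_⟩
    have : y + z - ((m + n : ℤ) : 𝓞 K) = (y - m) + (z - n) := by push_cast; ring
    rw [this]
    exact dvd_add hm hn
  | mul y z _ _ hy hz =>
    obtain ⟨m, hm⟩ := hy
    obtain ⟨n, hn⟩ := hz
    refine ⟨m * n, ?_⟩
    have : y * z - ((m * n : ℤ) : 𝓞 K) = (y - m) * z + (m : 𝓞 K) * (z - n) := by push_cast; ring
    rw [this]
    exact dvd_add (Dvd.dvd.mul_right hm z) (Dvd.dvd.mul_left hn _)

theorem lambda_pow_dvd_pow_sub_pow {x y : 𝓞 K} (h : (hζ.toInteger - 1) ∣ x - y) :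
    (hζ.toInteger - 1) ^ p ∣ x ^ p - y ^ p := by
  rw [hζ.toInteger_isPrimitiveRoot.pow_sub_pow_eq_prod_sub_mul x y hp.out.pos]
  have hcard : (Polynomial.nthRootsFinset p (1 : 𝓞 K)).card = p :=
    hζ.toInteger_isPrimitiveRoot.card_nthRootsFinset
  have hpow : (hζ.toInteger - 1) ^ p =
      ∏ _η ∈ Polynomial.nthRootsFinset p (1 : 𝓞 K), (hζ.toInteger - 1) := by
    rw [Finset.prod_const, hcard]
  rw [hpow]
  refine Finset.prod_dvd_prod_of_dvd _ _ fun η hη => ?_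
  have : x - η * y = (x - y) + (1 - η) * y := by ring
  rw [this]
  exact dvd_add h (Dvd.dvd.mul_right (lambda_dvd_one_sub_of_mem hζ hη) y)

theorem exists_int_pow_sub_dvd (x : 𝓞 K) :
    ∃ n : ℤ, (hζ.toInteger - 1) ^ p ∣ x ^ p - (n : 𝓞 K) := by
  obtain ⟨m, hm⟩ := exists_int_sub_dvd hζ x
  refine ⟨m ^ p, ?_⟩
  have := lambda_pow_dvd_pow_sub_pow hζ hm
  simpa using this

theorem natCast_dvd_lambda_pow : (p : 𝓞 K) ∣ (hζ.toInteger - 1) ^ p := by
  have h := (IsCyclotomicExtension.Rat.associated_zeta_sub_one_pow_prime p hζ).symm.dvd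
  exact h.trans (pow_dvd_pow _ (Nat.sub_le p 1))

theorem isUnit_one_add_zeta (hp2 : p ≠ 2) : IsUnit (1 + hζ.toInteger) := by
  have h := hζ.toInteger_isPrimitiveRoot.geom_sum_isUnit hp.out.two_le
    (j := 2) ((Nat.coprime_primes Nat.prime_two hp.out).2 (Ne.symm hp2))
  simpa [Finset.sum_range_succ] using h

theorem associated_lambda_zeta_pow_sub {i j : ℕ} (hij : ¬ (i : ℤ) ≡ j [ZMOD p]) :
    Associated (hζ.toInteger - 1) (hζ.toInteger ^ i - hζ.toInteger ^ j) := by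
  refine hζ.toInteger_isPrimitiveRoot.nthRootsFinset_pairwise_associated_sub_one_sub_of_prime
    hp.out (zeta_pow_mem hζ i) (zeta_pow_mem hζ j) ?_
  intro h
  apply hij
  rw [Int.natCast_modEq_iff]
  have hi := primitiveRoot_pow_mod hζ.toInteger_isPrimitiveRoot i
  have hj := primitiveRoot_pow_mod hζ.toInteger_isPrimitiveRoot j
  exact hζ.toInteger_isPrimitiveRoot.pow_inj (Nat.mod_lt _ hp.out.pos) (Nat.mod_lt _ hp.out.pos)
    (by rw [hi, hj, h])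

theorem pow_add_pow_eq_prod (hp2 : p ≠ 2) (a b : 𝓞 K) :
    a ^ p + b ^ p = ∏ i ∈ Finset.range p, (a + hζ.toInteger ^ i * b) := by
  rw [hζ.toInteger_isPrimitiveRoot.pow_add_pow_eq_prod_add_mul a b (hp.out.odd_of_ne_two hp2)]
  symm
  refine Finset.prod_nbij (fun i => hζ.toInteger ^ i) (fun i _ => zeta_pow_mem hζ i) ?_ ?_
    (fun i _ => rfl)
  · intro i hi j hj h
    exact hζ.toInteger_isPrimitiveRoot.pow_inj (Finset.mem_range.1 hi) (Finset.mem_range.1 hj) h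
  · intro η hη
    have hη' : η ^ p = 1 := (Polynomial.mem_nthRootsFinset hp.out.pos 1).1 hη
    obtain ⟨i, hi, rfl⟩ := hζ.toInteger_isPrimitiveRoot.eq_pow_of_pow_eq_one hη'
    exact ⟨i, Finset.mem_coe.2 (Finset.mem_range.2 hi), rfl⟩

theorem lambda_dvd_add_of_dvd_pow_add_pow (hp2 : p ≠ 2) {a b : 𝓞 K}
    (h : (hζ.toInteger - 1) ∣ a ^ p + b ^ p) : (hζ.toInteger - 1) ∣ a + b := by
  rw [pow_add_pow_eq_prod hζ hp2] at h
  obtain ⟨i, -, hi⟩ := (prime_lambda hζ).exists_mem_finset_dvd h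
  have : a + b = (a + hζ.toInteger ^ i * b) - (hζ.toInteger ^ i - 1) * b := by ring
  rw [this]
  exact dvd_sub hi (Dvd.dvd.mul_right (lambda_dvd_zeta_pow_sub_one hζ i) b)

theorem exists_lambda_sq_dvd {a b : 𝓞 K} (hab : (hζ.toInteger - 1) ∣ a + b)
    (hb : ¬ (hζ.toInteger - 1) ∣ b) :
    ∃ i < p, (hζ.toInteger - 1) ^ 2 ∣ a + hζ.toInteger ^ i * b := by
  obtain ⟨c, hc⟩ := hab
  obtain ⟨m, hm⟩ := exists_int_sub_dvd hζ c
  obtain ⟨n, hn⟩ := exists_int_sub_dvd hζ b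
  have hpn : ¬ (p : ℤ) ∣ n := by
    intro hdiv
    apply hb
    have h1 : (hζ.toInteger - 1) ∣ (n : 𝓞 K) := (intCast_lambda_dvd_iff hζ n).2 hdiv
    have : b = (b - n) + n := by ring
    rw [this]
    exact dvd_add hn h1
  have hn0 : (n : ZMod p) ≠ 0 := by
    rwa [Ne, ZMod.intCast_zmod_eq_zero_iff_dvd]
  set i : ZMod p := -(m : ZMod p) * (n : ZMod p)⁻¹ with hi
  have : NeZero p := ⟨hp.out.ne_zero⟩
  refine ⟨i.val, ZMod.val_lt i, ?_⟩
  have hdvd : (p : ℤ) ∣ m + (i.val : ℤ) * n := by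
    rw [← ZMod.intCast_zmod_eq_zero_iff_dvd]
    push_cast
    rw [ZMod.natCast_val, ZMod.cast_id, hi]
    field_simp
    ring
  have hlam : (hζ.toInteger - 1) ∣ c + (i.val : 𝓞 K) * b := by
    have h1 : (hζ.toInteger - 1) ∣ ((m + (i.val : ℤ) * n : ℤ) : 𝓞 K) :=
      (intCast_lambda_dvd_iff hζ _).2 hdvd
    have : c + (i.val : 𝓞 K) * b =
        (c - m) + (i.val : 𝓞 K) * (b - n) + ((m + (i.val : ℤ) * n : ℤ) : 𝓞 K) := by
      push_cast; ring
    rw [this]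
    exact dvd_add (dvd_add hm (Dvd.dvd.mul_left hn _)) h1
  obtain ⟨s, hs⟩ := zeta_pow_sub_one_eq hζ i.val
  obtain ⟨t, ht⟩ := hlam
  refine ⟨t + s * b, ?_⟩
  have : a + hζ.toInteger ^ i.val * b = (a + b) + (hζ.toInteger ^ i.val - 1) * b := by ring
  rw [this, hc, hs]
  have ht' : c + (i.val : 𝓞 K) * b = (hζ.toInteger - 1) * t := ht
  linear_combination (hζ.toInteger - 1) * ht'

theorem exists_eq_lambda_pow_mul {c : ℤ} (hc : c ≠ 0) (hpc : (p : ℤ) ∣ c) :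
    ∃ (m : ℕ) (c' : 𝓞 K), 1 ≤ m ∧ ¬ (hζ.toInteger - 1) ∣ c' ∧
      (c : 𝓞 K) = (hζ.toInteger - 1) ^ m * c' := by
  have hc0 : (c : 𝓞 K) ≠ 0 := by exact_mod_cast hc
  obtain ⟨m, c', hc', hcc'⟩ := WfDvdMonoid.max_power_factor hc0 (prime_lambda hζ).irreducible
  refine ⟨m, c', ?_, hc', hcc'⟩
  by_contra hm
  have hm0 : m = 0 := by omega
  rw [hm0, pow_zero, one_mul] at hcc'
  exact hc' (hcc' ▸ (intCast_lambda_dvd_iff hζ c).2 hpc)

end Fermat.Agent.S10
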