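import Mathlib
import Fermat.Agent.S10.PIDLemmas

set_option autoImplicit false

namespace Fermat.Agent.S10

open NumberField Polynomial

section Cert

variable {R : Type*} [CommRing R] (z : R)

theorem pid11_cert_one
    (h : 1 + z + z ^ 2 + z ^ 3 + z ^ 4 + z ^ 5 + z ^ 6 + z ^ 7 + z ^ 8 + z ^ 9 + z ^ 10 = 0) :
    (1 + z + z ^ 3) * (-2 - 14 * z - 17 * z ^ 2 - 12 * z ^ 3 - 5 * z ^ 4 - 9 * z ^ 5
      - 10 * z ^ 6 - 16 * z ^ 7 - 6 * z ^ 8 - 15 * z ^ 9) = 23 := by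
  linear_combination (-25 + 9 * z - 15 * z ^ 2) * h

theorem pid11_cert_two
    (h : 1 + z + z ^ 2 + z ^ 3 + z ^ 4 + z ^ 5 + z ^ 6 + z ^ 7 + z ^ 8 + z ^ 9 + z ^ 10 = 0) :
    (1 + z + z ^ 3) * (1 + 3 * z + 3 * z ^ 2 + 2 * z ^ 3 + z ^ 4 + 2 * z ^ 5 + 2 * z ^ 6
      + 3 * z ^ 7 + z ^ 8 + 3 * z ^ 9) = z - 4 := by
  linear_combination (5 - 2 * z + 3 * z ^ 2) * h

end Cert

theorem pid_eleven (K : Type*) [Field K] [NumberField K] [IsCyclotomicExtension {11} ℚ K] :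
    IsPrincipalIdealRing (𝓞 K) := by
  have : Fact (Nat.Prime 11) := ⟨by norm_num⟩
  have : Fact (Nat.Prime 23) := ⟨by norm_num⟩
  have hζ := IsCyclotomicExtension.zeta_spec 11 ℚ K
  have hΦ : 1 + hζ.toInteger + hζ.toInteger ^ 2 + hζ.toInteger ^ 3 + hζ.toInteger ^ 4
      + hζ.toInteger ^ 5 + hζ.toInteger ^ 6 + hζ.toInteger ^ 7 + hζ.toInteger ^ 8
      + hζ.toInteger ^ 9 + hζ.toInteger ^ 10 = 0 := by
    have := hζ.toInteger_isPrimitiveRoot.geom_sum_eq_zero (by norm_num)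
    simpa [Finset.sum_range_succ] using this
  refine pid_of_cert 11 K (by norm_num) 59 6 (by norm_num) 48559 (by norm_num) (by norm_num)
    ?_ [23] ?_ ?_
  · norm_num [Nat.factorial]
  · intro q hq hprime
    interval_cases q <;> first
      | (exfalso; revert hprime; norm_num; done)
      | (left; rfl)
      | (right; left; simp; done)
      | (right; right; decide)
  · intro q hq
    obtain rfl : q = 23 := by simpa using hq
    refine exists_principal_primesOver_of_root 11 K hζ 23 4 (by decide)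
      (1 + hζ.toInteger + hζ.toInteger ^ 3)
      (-2 - 14 * hζ.toInteger - 17 * hζ.toInteger ^ 2 - 12 * hζ.toInteger ^ 3
        - 5 * hζ.toInteger ^ 4 - 9 * hζ.toInteger ^ 5 - 10 * hζ.toInteger ^ 6
        - 16 * hζ.toInteger ^ 7 - 6 * hζ.toInteger ^ 8 - 15 * hζ.toInteger ^ 9)
      (1 + 3 * hζ.toInteger + 3 * hζ.toInteger ^ 2 + 2 * hζ.toInteger ^ 3 + hζ.toInteger ^ 4
        + 2 * hζ.toInteger ^ 5 + 2 * hζ.toInteger ^ 6 + 3 * hζ.toInteger ^ 7
        + hζ.toInteger ^ 8 + 3 * hζ.toInteger ^ 9) ?_ ?_ ?_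
    · rw [pid11_cert_one _ hΦ]; norm_num
    · rw [pid11_cert_two _ hΦ]; norm_num
    · exact Ideal.mem_span_pair.mpr
        ⟨3, 17 + 4 * hζ.toInteger + hζ.toInteger ^ 2, by push_cast; ring⟩

end Fermat.Agent.S10
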