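import Fermat.Agent.S10.Reduce
import Fermat.Agent.S10.SophieGermain
import Fermat.Agent.S10.CaseII
import Fermat.Agent.S10.KummerCrit
import Fermat.Agent.S10.Cert11
import Fermat.Agent.S10.PID11

set_option autoImplicit false

namespace Fermat.Agent.S10

/-- Fermat's Last Theorem for the exponent 11. -/
theorem flt_eleven : FermatLastTheoremFor 11 := by
  have : Fact (Nat.Prime 11) := ⟨by norm_num⟩
  have : IsCyclotomicExtension {11} ℚ (CyclotomicField 11 ℚ) :=
    CyclotomicField.isCyclotomicExtension 11 ℚ
  have := pid_eleven (CyclotomicField 11 ℚ)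
  exact flt_of_caseI_of_caseII 11 (by norm_num) caseI_eleven
    (caseII_of_pid_of_kummer 11 (by norm_num) (CyclotomicField 11 ℚ)
      (kummerLemma_of_cert 11 (by norm_num) _ kummerCert_eleven))

end Fermat.Agent.S10
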