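import Fermat.Agent.S10.Defs

set_option autoImplicit false

namespace Fermat.Agent.S10

private lemma gcd_perm1 {a b c : ℤ} (h : Finset.gcd {a, b, c} id = 1) :
    Finset.gcd {a, b, -c} id = 1 := by
  simpa only [Finset.gcd_insert, Finset.gcd_singleton, id_eq, ← Int.abs_eq_normalize, abs_neg]
    using h

private lemma gcd_perm2 {a b c : ℤ} (h : Finset.gcd {a, b, c} id = 1) :
    Finset.gcd {a, -c, b} id = 1 := by
  rw [Finset.pair_comm (-c) b]
  exact gcd_perm1 h

private lemma gcd_perm3 {a b c : ℤ} (h : Finset.gcd {a, b, c} id = 1) :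
    Finset.gcd {b, -c, a} id = 1 := by
  rw [Finset.pair_comm (-c) a, Finset.insert_comm b a]
  exact gcd_perm1 h

private lemma not_dvd_of_isCoprime {q x y : ℤ} (hq : Prime q) (hxy : IsCoprime x y) (hx : q ∣ x) :
    ¬ q ∣ y := fun hy => hq.not_isUnit (hxy.isUnit_of_dvd' hx hy)

/-- Fermat's Last Theorem for an odd prime exponent follows from the two cases. -/
theorem flt_of_caseI_of_caseII (p : ℕ) [hp : Fact p.Prime] (hodd : p ≠ 2)
    (h1 : CaseI p) (h2 : CaseII p) : FermatLastTheoremFor p := by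
  have hpodd : Odd p := hp.out.odd_of_ne_two hodd
  have hpZ : Prime (p : ℤ) := Nat.prime_iff_prime_int.mp hp.out
  rw [fermatLastTheoremFor_iff_int]
  refine fermatLastTheoremWith_of_fermatLastTheoremWith_coprime (fun a b c ha hb hc Hgcd hF => ?_)
  have HF1 : a ^ p + b ^ p + (-c) ^ p = 0 := by rw [hpodd.neg_pow, hF]; ring
  have HF2 : a ^ p + (-c) ^ p + b ^ p = 0 := by rw [hpodd.neg_pow, ← hF]; ring
  have HF3 : b ^ p + (-c) ^ p + a ^ p = 0 := by rw [hpodd.neg_pow, ← hF]; ring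
  have hab : IsCoprime a b := isCoprime_of_gcd_eq_one_of_FLT (gcd_perm1 Hgcd) HF1
  have hac : IsCoprime a c :=
    (IsCoprime.neg_right_iff a c).mp (isCoprime_of_gcd_eq_one_of_FLT (gcd_perm2 Hgcd) HF2)
  have hbc : IsCoprime b c :=
    (IsCoprime.neg_right_iff b c).mp (isCoprime_of_gcd_eq_one_of_FLT (gcd_perm3 Hgcd) HF3)
  by_cases h : (p : ℤ) ∣ a * b * c
  · rcases hpZ.dvd_or_dvd h with h | hpc
    · rcases hpZ.dvd_or_dvd h with hpa | hpb
      · -- p ∣ a : use c ^ p + (-b) ^ p = a ^ p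
        refine h2 c (-b) a ha (not_dvd_of_isCoprime hpZ hac hpa) ?_ hpa hbc.symm.neg_right ?_
        · rw [dvd_neg]; exact not_dvd_of_isCoprime hpZ hab hpa
        · rw [hpodd.neg_pow, ← hF]; ring
      · -- p ∣ b : use c ^ p + (-a) ^ p = b ^ p
        refine h2 c (-a) b hb (not_dvd_of_isCoprime hpZ hbc hpb) ?_ hpb hac.symm.neg_right ?_
        · rw [dvd_neg]; exact not_dvd_of_isCoprime hpZ hab.symm hpb
        · rw [hpodd.neg_pow, ← hF]; ring
    · exact h2 a b c hc (not_dvd_of_isCoprime hpZ hac.symm hpc)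
        (not_dvd_of_isCoprime hpZ hbc.symm hpc) hpc hab hF
  · exact h1 a b c hab h hF

end Fermat.Agent.S10
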